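import Fermat.Agent.Red.BC.Span
import Fermat.Agent.S23.AutDescent

/-!
# P-RED / R-BC, part 3: Galois descent of integral elements

`h58_stepA`: an element `x` of `F_K` integral over `A[t]` (`t` with rational coefficients) is
a finite `Kbar`-linear combination of elements of `F_K` which have rational coefficients and
are integral over `A[t]`.
-/

set_option autoImplicit false

open ModularCurve

noncomputable section

namespace Fermat.Agent.Red.BC

open Fermat.Agent.S28 Fermat.Agent.Red.GV Fermat.Agent.S37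

/-! ### Integrality over `Kbar[t]` -/

section IntK

variable (t : LaurentSeries Kbar)

theorem h58_evalC_C (c : Kbar) : evalC t (Polynomial.C c) = HahnSeries.C c := by
  simp [evalC]

theorem h58_evalA_eq_comp (A : ValuationSubring Kbar) :
    evalA A t = (evalC t).comp (Polynomial.mapRingHom A.subtype) :=
  RingHom.ext fun Q => by
    rw [evalA_eq_evalC_map]
    rfl

theorem h58_intK_of_int (A : ValuationSubring Kbar) {x : LaurentSeries Kbar}
    (hx : (evalA A t).IsIntegralElem x) : (evalC t).IsIntegralElem x := by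
  rw [h58_evalA_eq_comp] at hx
  exact RingHom.IsIntegralElem.of_comp hx

theorem h58_intK_C (c : Kbar) : (evalC t).IsIntegralElem (HahnSeries.C c) := by
  rw [← h58_evalC_C t c]
  exact RingHom.isIntegralElem_map _

theorem h58_intK_smul {x : LaurentSeries Kbar} (hx : (evalC t).IsIntegralElem x) (c : Kbar) :
    (evalC t).IsIntegralElem (c • x) := by
  rw [← HahnSeries.C_mul_eq_smul]
  exact RingHom.IsIntegralElem.mul _ (h58_intK_C t c) hx

theorem h58_intK_conj (σ : Kbar ≃+* Kbar)
    (ht : coeffMap (σ : Kbar →+* Kbar) t = t) {x : LaurentSeries Kbar}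
    (hx : (evalC t).IsIntegralElem x) :
    (evalC t).IsIntegralElem (coeffMap (σ : Kbar →+* Kbar) x) := by
  have := Base.h80_transfer_monic (σ : Kbar →+* Kbar) t x hx
  rwa [ht] at this

end IntK

/-! ### Scaling -/

section Scaling

variable (A : ValuationSubring Kbar) (ℓ : ℕ) (hℓ : ℓ.Prime) (hA : A.LiesOverPrime ℓ)

include hℓ hA in
/-- a uniform power of `ℓ` moving all coefficients of a polynomial in two variables into `A`. -/
theorem h58_exists_pow_coeff (P : Polynomial (Polynomial Kbar)) :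
    ∃ n : ℕ, ∀ i j : ℕ, (ℓ : Kbar) ^ n * (P.coeff i).coeff j ∈ A := by
  classical
  set B : ℕ := P.support.sup (fun i => (P.coeff i).natDegree) with hB
  obtain ⟨n, hn⟩ := h58_exists_pow_mul_mem_finset A ℓ hℓ hA
    (P.support ×ˢ Finset.range (B + 1)) (fun ij : ℕ × ℕ => (P.coeff ij.1).coeff ij.2)
  refine ⟨n, fun i j => ?_⟩
  by_cases hi : i ∈ P.support
  · by_cases hj : j ≤ B
    · exact hn (i, j) (Finset.mem_product.mpr ⟨hi, Finset.mem_range.mpr (Nat.lt_succ_of_le hj)⟩)
    · have hdeg : (P.coeff i).natDegree ≤ B := Finset.le_sup (f := fun i => (P.coeff i).natDegree) hi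
      have : (P.coeff i).coeff j = 0 :=
        Polynomial.coeff_eq_zero_of_natDegree_lt (by omega)
      rw [this, mul_zero]
      exact A.zero_mem
  · have : P.coeff i = 0 := Polynomial.notMem_support_iff.mp hi
    rw [this, Polynomial.coeff_zero, mul_zero]
    exact A.zero_mem

theorem h58_mem_range_map (p : Polynomial Kbar) (hp : ∀ j, p.coeff j ∈ A) :
    p ∈ Set.range (Polynomial.mapRingHom A.subtype) := by
  have : p ∈ Polynomial.lifts A.subtype := by
    rw [Polynomial.lifts_iff_coeff_lifts]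
    intro j
    exact ⟨⟨p.coeff j, hp j⟩, rfl⟩
  obtain ⟨q, hq⟩ := (Polynomial.mem_lifts p).mp this
  exact ⟨q, hq⟩

include hℓ hA in
/-- **Scaling**: an element integral over `Kbar[t]` becomes integral over `A[t]` after
multiplication by a power of `ℓ`. -/
theorem h58_scaling (t : LaurentSeries Kbar) {v : LaurentSeries Kbar}
    (hv : (evalC t).IsIntegralElem v) :
    ∃ n : ℕ, (evalA A t).IsIntegralElem (HahnSeries.C ((ℓ : Kbar) ^ n) * v) := by
  obtain ⟨P, hP, hPv⟩ := hv
  obtain ⟨n, hn⟩ := h58_exists_pow_coeff A ℓ hℓ hA P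
  refine ⟨n, ?_⟩
  set s : Polynomial Kbar := Polynomial.C ((ℓ : Kbar) ^ n) with hs
  have hsmem : s ∈ (Polynomial.mapRingHom A.subtype).range := by
    refine h58_mem_range_map A s fun j => ?_
    rw [hs, Polynomial.coeff_C]
    split_ifs
    · exact A.pow_mem (natCast_mem A ℓ) n
    · exact A.zero_mem
  have hcoef : ∀ i, s * P.coeff i ∈ (Polynomial.mapRingHom A.subtype).range := by
    intro i
    refine h58_mem_range_map A _ fun j => ?_
    rw [hs, Polynomial.coeff_C_mul]
    exact hn i j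
  have hQ : Polynomial.scaleRoots P s ∈ Polynomial.lifts (Polynomial.mapRingHom A.subtype) := by
    rw [Polynomial.lifts_iff_coeff_lifts]
    intro i
    rw [Polynomial.coeff_scaleRoots]
    show _ ∈ ((Polynomial.mapRingHom A.subtype).range : Set (Polynomial Kbar))
    rcases lt_trichotomy i P.natDegree with hi | hi | hi
    · have h1 : P.natDegree - i = (P.natDegree - i - 1) + 1 := by omega
      have h2 : P.coeff i * s ^ (P.natDegree - i - 1 + 1) =
          s ^ (P.natDegree - i - 1) * (s * P.coeff i) := by ring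
      rw [h1, h2]
      exact mul_mem (pow_mem hsmem _) (hcoef i)
    · rw [hi, Nat.sub_self, pow_zero, mul_one]
      have : P.coeff P.natDegree = 1 := hP
      rw [this]
      exact one_mem _
    · rw [Polynomial.coeff_eq_zero_of_natDegree_lt hi, zero_mul]
      exact zero_mem _
  obtain ⟨Q', hQ', -, hQ'm⟩ := Polynomial.lifts_and_degree_eq_and_monic hQ
    ((Polynomial.monic_scaleRoots_iff s).mpr hP)
  refine ⟨Q', hQ'm, ?_⟩
  rw [h58_evalA_eq_comp, ← Polynomial.eval₂_map, hQ', ← h58_evalC_C t]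
  exact Polynomial.scaleRoots_eval₂_eq_zero _ hPv

end Scaling

/-! ### The descent -/

section Descent

variable (F₀ : IntermediateField ℚ (LaurentSeries ℚ))

/-- the rational elements of `F_K` which are integral over `A[t]`. -/
def h58_Rat0 (A : ValuationSubring Kbar) (t : LaurentSeries Kbar) : Set (LaurentSeries Kbar) :=
  {f | (∃ g ∈ F₀, coeffEmb Kbar g = f) ∧ (evalA A t).IsIntegralElem f}

theorem h58_Rat0_mem_FK {A : ValuationSubring Kbar} {t f : LaurentSeries Kbar}
    (hf : f ∈ h58_Rat0 F₀ A t) : f ∈ laurentBaseChange Kbar F₀ := by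
  obtain ⟨⟨g, hg, rfl⟩, -⟩ := hf
  exact coeffEmb_mem_laurentBaseChange Kbar hg

theorem h58_coeffMap_C (σ : Kbar →+* Kbar) (c : Kbar) :
    coeffMap σ (HahnSeries.C c) = HahnSeries.C (σ c) := by
  rw [HahnSeries.C_apply, coeffMap_single, HahnSeries.C_apply]

theorem h58_coeffMap_smul (σ : Kbar →+* Kbar) (c : Kbar) (x : LaurentSeries Kbar) :
    coeffMap σ (c • x) = σ c • coeffMap σ x := by
  ext n
  simp

theorem h58_smul_mem_FK {x : LaurentSeries Kbar} (hx : x ∈ laurentBaseChange Kbar F₀)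
    (c : Kbar) : c • x ∈ laurentBaseChange Kbar F₀ := by
  rw [← HahnSeries.C_mul_eq_smul, h58_C_eq_algebraMap]
  exact mul_mem ((laurentBaseChange Kbar F₀).algebraMap_mem c) hx

theorem h58_coeffMap_ringEquiv_mem (σ : Kbar ≃+* Kbar) {x : LaurentSeries Kbar}
    (hx : x ∈ laurentBaseChange Kbar F₀) :
    coeffMap (σ : Kbar →+* Kbar) x ∈ laurentBaseChange Kbar F₀ := by
  let σ' : Kbar ≃ₐ[ℚ] Kbar := AlgEquiv.ofRingEquiv (f := σ) (fun r => by simp)
  exact coeffMap_mem_laurentBaseChange σ' hx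

theorem h58_coeffMap_ringEquiv_coeffEmb (σ : Kbar ≃+* Kbar) (g : LaurentSeries ℚ) :
    coeffMap (σ : Kbar →+* Kbar) (coeffEmb Kbar g) = coeffEmb Kbar g := by
  ext n
  simp

variable (A : ValuationSubring Kbar) (ℓ : ℕ) (hℓ : ℓ.Prime) (hA : A.LiesOverPrime ℓ)

include hℓ hA in
/-- **Step A (Galois descent)**. -/
theorem h58_stepA (t : LaurentSeries Kbar)
    (ht : ∀ σ : Kbar ≃+* Kbar, coeffMap (σ : Kbar →+* Kbar) t = t)
    {x : LaurentSeries Kbar} (hx : x ∈ laurentBaseChange Kbar F₀)
    (hint : (evalA A t).IsIntegralElem x) :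
    x ∈ Submodule.span Kbar (h58_Rat0 F₀ A t) := by
  classical
  -- the span of the conjugates
  set V : Submodule Kbar (LaurentSeries Kbar) :=
    Submodule.span Kbar (Set.range fun σ : Kbar ≃+* Kbar => coeffMap (σ : Kbar →+* Kbar) x)
    with hV
  have hxV : x ∈ V := by
    refine Submodule.subset_span ⟨RingEquiv.refl Kbar, ?_⟩
    ext n
    simp
  have hVprop : ∀ v ∈ V, v ∈ laurentBaseChange Kbar F₀ ∧ (evalC t).IsIntegralElem v := by
    intro v hv
    induction hv using Submodule.span_induction with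
    | mem y hy =>
      obtain ⟨σ, rfl⟩ := hy
      exact ⟨h58_coeffMap_ringEquiv_mem F₀ σ hx,
        h58_intK_conj t σ (ht σ) (h58_intK_of_int t A hint)⟩
    | zero => exact ⟨zero_mem _, RingHom.isIntegralElem_zero _⟩
    | add y z _ _ hy hz => exact ⟨add_mem hy.1 hz.1, RingHom.IsIntegralElem.add _ hy.2 hz.2⟩
    | smul c y _ hy => exact ⟨h58_smul_mem_FK F₀ hy.1 c, h58_intK_smul t hy.2 c⟩
  have hVstab : ∀ σ : Kbar ≃+* Kbar, ∀ v ∈ V, coeffMap (σ : Kbar →+* Kbar) v ∈ V := by
    intro σ v hv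
    induction hv using Submodule.span_induction with
    | mem y hy =>
      obtain ⟨τ, rfl⟩ := hy
      refine Submodule.subset_span ⟨τ.trans σ, ?_⟩
      ext n
      simp
    | zero => rw [map_zero]; exact zero_mem _
    | add y z _ _ hy hz => rw [map_add]; exact add_mem hy hz
    | smul c y _ hy => rw [h58_coeffMap_smul]; exact Submodule.smul_mem _ _ hy
  -- finite dimensionality
  obtain ⟨ι, s, c, g, hg, hxrep⟩ := h58_exists_rep F₀ hx
  set W : Submodule Kbar (LaurentSeries Kbar) :=
    Submodule.span Kbar ((s.image fun i => coeffEmb Kbar (g i) : Finset _) : Set _) with hW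
  have hVW : V ≤ W := by
    refine Submodule.span_le.mpr ?_
    rintro _ ⟨σ, rfl⟩
    show coeffMap (σ : Kbar →+* Kbar) x ∈ W
    rw [hxrep, map_sum]
    refine Submodule.sum_mem _ fun i hi => ?_
    rw [map_mul, h58_coeffMap_ringEquiv_coeffEmb, h58_coeffMap_C, HahnSeries.C_mul_eq_smul]
    exact Submodule.smul_mem _ _ (Submodule.subset_span (Finset.mem_coe.mpr
      (Finset.mem_image.mpr ⟨i, hi, rfl⟩)))
  haveI : FiniteDimensional Kbar W := FiniteDimensional.span_finset Kbar _
  haveI : FiniteDimensional Kbar V := Submodule.finiteDimensional_of_le hVW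
  have hdesc := Fermat.Agent.S23.H8.span_rational_eq_of_stable (K := Kbar)
    (M := LaurentSeries Kbar) (ι := ℤ)
    (fun n => HahnSeries.coeff.linearMap n) (fun m hm => HahnSeries.ext (funext hm))
    (fun σ v => coeffMap (σ : Kbar →+* Kbar) v) (fun σ m i => rfl) V hVstab
  rw [← hdesc] at hxV
  refine Submodule.span_le.mpr ?_ hxV
  rintro v ⟨hvV, hvc⟩
  obtain ⟨hvF, hvint⟩ := hVprop v hvV
  obtain ⟨g', hg', hgv⟩ := h58_exists_rat_of_coeff F₀ hvF hvc
  obtain ⟨n, hn⟩ := h58_scaling A ℓ hℓ hA t hvint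
  have hℓ0 : ((ℓ : Kbar)) ^ n ≠ 0 := pow_ne_zero _ (Nat.cast_ne_zero.mpr hℓ.ne_zero)
  have hmem : HahnSeries.C ((ℓ : Kbar) ^ n) * v ∈ h58_Rat0 F₀ A t := by
    refine ⟨⟨(ℓ : LaurentSeries ℚ) ^ n * g', mul_mem (pow_mem (natCast_mem F₀ ℓ) n) hg', ?_⟩, hn⟩
    rw [map_mul, map_pow, map_natCast, hgv, map_pow, map_natCast]
  have hv : v = ((ℓ : Kbar) ^ n)⁻¹ • (HahnSeries.C ((ℓ : Kbar) ^ n) * v) := by
    rw [← HahnSeries.C_mul_eq_smul, ← mul_assoc, ← map_mul, inv_mul_cancel₀ hℓ0, map_one,
      one_mul]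
  show v ∈ Submodule.span Kbar (h58_Rat0 F₀ A t)
  rw [hv]
  exact Submodule.smul_mem _ _ (Submodule.subset_span hmem)

end Descent

end Fermat.Agent.Red.BC
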