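import Mathlib

/-!
# P-RED / R-BC (hedge): abstract lemmas on integrality over subrings

`R ≤ R'` subrings of a commutative ring `F`.

* `h46b_isIntegralElem_mono` : integral over `R` ⟹ integral over `R'`.
* `h46b_isIntegralElem_clear` : if every element of `R'` becomes an element of `R` after
  multiplication by a power of `s ∈ R`, then an element integral over `R'` becomes integral over
  `R` after multiplication by a power of `s`.
* `h46b_exists_pow_mul_mem` : a valuation subring `A` of an algebraic extension `K` of `ℚ` with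
  `ℓ ∈ 𝔪_A` satisfies `K = A[1/ℓ]`.
-/

set_option autoImplicit false

namespace Fermat.Agent.Red.BC

open Polynomial

variable {F : Type*} [CommRing F] [Nontrivial F]

omit [Nontrivial F] in
theorem h46b_isIntegralElem_mono {R R' : Subring F} (h : R ≤ R') {x : F}
    (hx : R.subtype.IsIntegralElem x) : R'.subtype.IsIntegralElem x := by
  obtain ⟨p, hp, hpx⟩ := hx
  refine ⟨p.map (Subring.inclusion h), hp.map _, ?_⟩
  rw [Polynomial.eval₂_map]
  exact hpx

theorem h46b_isIntegralElem_clear {R R' : Subring F} (h : R ≤ R') (s : F) (hs : s ∈ R)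
    (hR : ∀ r ∈ R', ∃ m : ℕ, s ^ m * r ∈ R) {x : F}
    (hx : R'.subtype.IsIntegralElem x) : ∃ m : ℕ, R.subtype.IsIntegralElem (s ^ m * x) := by
  obtain ⟨p, hp, hpx⟩ := hx
  -- a common exponent for the coefficients
  have hcoef : ∃ m : ℕ, ∀ i : ℕ, s ^ m * (p.coeff i : F) ∈ R := by
    have : ∀ n : ℕ, ∃ m : ℕ, ∀ i < n, s ^ m * (p.coeff i : F) ∈ R := by
      intro n
      induction n with
      | zero => exact ⟨0, fun i hi => absurd hi (Nat.not_lt_zero i)⟩
      | succ n ih =>
        obtain ⟨m₁, hm₁⟩ := ih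
        obtain ⟨m₂, hm₂⟩ := hR _ (p.coeff n).2
        refine ⟨m₁ + m₂, fun i hi => ?_⟩
        rcases Nat.lt_succ_iff_lt_or_eq.mp hi with hi | rfl
        · have := R.mul_mem (R.pow_mem hs m₂) (hm₁ i hi)
          rwa [← mul_assoc, ← pow_add, add_comm] at this
        · have := R.mul_mem (R.pow_mem hs m₁) hm₂
          rwa [← mul_assoc, ← pow_add] at this
    obtain ⟨m, hm⟩ := this (p.natDegree + 1)
    refine ⟨m, fun i => ?_⟩
    by_cases hi : i < p.natDegree + 1
    · exact hm i hi
    · rw [Polynomial.coeff_eq_zero_of_natDegree_lt (by omega)]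
      simp
  obtain ⟨m, hm⟩ := hcoef
  refine ⟨m, ?_⟩
  have hsR' : s ^ m ∈ R' := h (R.pow_mem hs m)
  set σ : R' := ⟨s ^ m, hsR'⟩ with hσ
  -- the scaled polynomial
  have hlift : p.scaleRoots σ ∈ Polynomial.lifts (Subring.inclusion h) := by
    rw [Polynomial.lifts_iff_coeff_lifts]
    intro i
    rw [Polynomial.coeff_scaleRoots]
    by_cases hi : i < p.natDegree
    · have h1 : (p.coeff i : F) * (s ^ m) ^ (p.natDegree - i) ∈ R := by
        have e : p.natDegree - i = (p.natDegree - i - 1) + 1 := by omega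
        rw [e, pow_succ]
        have := R.mul_mem (hm i) (R.pow_mem (R.pow_mem hs m) (p.natDegree - i - 1))
        convert this using 1
        ring
      exact ⟨⟨_, h1⟩, Subtype.ext rfl⟩
    · rcases Nat.eq_or_lt_of_not_lt hi with hi' | hi'
      · subst hi'
        rw [hp.coeff_natDegree, Nat.sub_self, pow_zero, mul_one]
        exact ⟨1, map_one _⟩
      · rw [Polynomial.coeff_eq_zero_of_natDegree_lt hi', zero_mul]
        exact ⟨0, map_zero _⟩
  obtain ⟨q, hq, -, hqm⟩ := Polynomial.lifts_and_degree_eq_and_monic hlift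
    ((Polynomial.monic_scaleRoots_iff σ).2 hp)
  refine ⟨q, hqm, ?_⟩
  have e1 : R.subtype = R'.subtype.comp (Subring.inclusion h) := rfl
  rw [e1, ← Polynomial.eval₂_map, hq]
  have := Polynomial.scaleRoots_eval₂_eq_zero (p := p) R'.subtype (r := x) (s := σ) hpx
  simpa [hσ] using this

/-- `K = A[1/ℓ]` for a valuation subring `A` of an algebraic extension `K` of `ℚ` with
`ℓ ∈ 𝔪_A`, `ℓ` prime. -/
theorem h46b_exists_pow_mul_mem {K : Type*} [Field K]
    (A : ValuationSubring K) {ℓ : ℕ} (hℓ : ℓ.Prime) (hA : (ℓ : K) ∈ A.nonunits) (c : K)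
    (halg : IsAlgebraic ℤ c) :
    ∃ m : ℕ, (ℓ : K) ^ m * c ∈ A := by
  -- an integral multiple
  obtain ⟨d, hd0, hd⟩ := halg.exists_integral_multiple
  have hdc : (d : K) * c ∈ A := by
    have h2 : IsIntegral A ((d : K) * c) := by
      have : d • c = (d : K) * c := by rw [zsmul_eq_mul]
      rw [← this]
      exact hd.tower_top
    obtain ⟨y, hy⟩ := IsIntegrallyClosed.isIntegral_iff.mp h2
    rw [← hy]
    exact y.2
  -- split off the power of `ℓ`
  obtain ⟨m, d', hd', hdd'⟩ : ∃ (m : ℕ) (d' : ℤ), ¬ (ℓ : ℤ) ∣ d' ∧ d = (ℓ : ℤ) ^ m * d' := by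
    have hfin : FiniteMultiplicity (ℓ : ℤ) d :=
      Int.finiteMultiplicity_iff.2 ⟨by simpa using hℓ.ne_one, hd0⟩
    obtain ⟨d', h1, h2⟩ := hfin.exists_eq_pow_mul_and_not_dvd
    exact ⟨_, d', h2, h1⟩
  -- integers are in `A`
  have hint : ∀ z : ℤ, (z : K) ∈ A := fun z => by
    have : ((z : A) : K) = (z : K) := by norm_cast
    rw [← this]
    exact (z : A).2
  -- `d'` is a unit of `A`
  have hd'u : A.valuation (d' : K) = 1 := by
    rcases lt_or_eq_of_le ((A.valuation_le_one_iff _).mpr (hint d')) with hlt | heq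
    · exfalso
      have hcop : IsCoprime (ℓ : ℤ) d' :=
        (Nat.prime_iff_prime_int.mp hℓ).coprime_iff_not_dvd.mpr hd'
      obtain ⟨u, v, huv⟩ := hcop
      have hℓlt : A.valuation (ℓ : K) < 1 := A.mem_nonunits_iff.mp hA
      have h3 : A.valuation ((u : K) * (ℓ : K)) < 1 := by
        rw [map_mul]
        calc A.valuation (u : K) * A.valuation (ℓ : K)
            ≤ 1 * A.valuation (ℓ : K) :=
              mul_le_mul_left ((A.valuation_le_one_iff _).mpr (hint u)) _
          _ < 1 := by rwa [one_mul]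
      have h4 : A.valuation ((v : K) * (d' : K)) < 1 := by
        rw [map_mul]
        calc A.valuation (v : K) * A.valuation (d' : K)
            ≤ 1 * A.valuation (d' : K) :=
              mul_le_mul_left ((A.valuation_le_one_iff _).mpr (hint v)) _
          _ < 1 := by rwa [one_mul]
      have h5 := (A.valuation).map_add_lt h3 h4
      have h2 : ((u : K) * (ℓ : K) + (v : K) * (d' : K)) = 1 := by
        have := congrArg (fun z : ℤ => (z : K)) huv
        simpa using this
      rw [h2, map_one] at h5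
      exact lt_irrefl _ h5
    · exact heq
  have hd'0 : (d' : K) ≠ 0 := by
    intro h0
    rw [h0, map_zero] at hd'u
    exact zero_ne_one hd'u
  have hd'inv : (d' : K)⁻¹ ∈ A := by
    rw [← A.valuation_le_one_iff, map_inv₀, hd'u, inv_one]
  refine ⟨m, ?_⟩
  have e : (ℓ : K) ^ m * c = (d' : K)⁻¹ * ((d : K) * c) := by
    rw [hdd']
    push_cast
    field_simp
  rw [e]
  exact A.mul_mem _ _ hd'inv hdc

end Fermat.Agent.Red.BC
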