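import Fermat.Agent.Red.GV.Bar
import Fermat.Agent.Red.BC.Abs46

/-!
# P-RED / R-BC (hedge): base change of the normal model, assembly

`IfaceBaseChange M` from two inputs:

* `h46b_DescentHyp M` (characteristic zero): an element of `F_M` integral over `ℚ̄[t]`
  (`t` rational) is a `ℚ̄`-linear combination of rational functions integral over `ℚ̄[t]`;
* `h46b_EchelonHyp M` : a finite family of rational functions can be replaced by a
  Gauss-orthonormal family with the same `ℚ̄`-span.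

Main statement: `h46b_baseChange_of`.
-/

set_option autoImplicit false

open AlgebraicCurve ModularCurve IntermediateField

noncomputable section

namespace Fermat.Agent.Red.BC

open Fermat.Agent.S37 Fermat.Agent.Red.GV

/-- **(D) descent in characteristic zero.** -/
def h46b_DescentHyp (M : ℕ) [NeZero M] : Prop :=
  ∀ t : FF M, IsRat t → ∀ x : FF M, x ∈ modelAt M (⊤ : ValuationSubring Kbar) t →
    ∃ (n : ℕ) (c : Fin n → Kbar) (f : Fin n → FF M),
      (∀ i, IsRat (f i)) ∧ (∀ i, f i ∈ modelAt M (⊤ : ValuationSubring Kbar) t) ∧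
        x = ∑ i, cst M (c i) * f i

/-- **(E) echelon form.** -/
def h46b_EchelonHyp (M : ℕ) [NeZero M] : Prop :=
  ∀ ℓ : ℕ, ℓ.Prime → ¬ ℓ ∣ M → ∀ A : ValuationSubring Kbar, A.LiesOverPrime ℓ →
    ∀ (n : ℕ) (f : Fin n → FF M), (∀ i, IsRat (f i)) →
      ∃ (d : ℕ) (g : Fin d → FF M),
        (∀ i, IsRat (g i)) ∧ (∀ i, g i ∈ gaussV A M) ∧
        (∀ i, g i ∈ Submodule.span Kbar (Set.range f)) ∧
        (∀ i, f i ∈ Submodule.span Kbar (Set.range g)) ∧
        ∀ c : Fin d → Kbar, (∑ i, cst M (c i) * g i) ∈ gaussV A M → ∀ i, c i ∈ A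

section Chart

variable (M : ℕ) (A : ValuationSubring Kbar)

set_option synthInstance.maxHeartbeats 400000 in
theorem h46b_mem_modelAt_iff (t x : FF M) :
    x ∈ modelAt M A t ↔ (ringAdj M A t).subtype.IsIntegralElem x :=
  Iff.rfl

theorem h46b_ringAdj_le_top (t : FF M) :
    ringAdj M A t ≤ ringAdj M (⊤ : ValuationSubring Kbar) t := by
  refine Subring.closure_mono (Set.union_subset_union_left _ ?_)
  exact Set.image_mono (fun a _ => ValuationSubring.mem_top a)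

theorem h46b_modelAt_le_top (t : FF M) :
    modelAt M A t ≤ modelAt M (⊤ : ValuationSubring Kbar) t := by
  intro x hx
  rw [h46b_mem_modelAt_iff] at hx ⊢
  exact h46b_isIntegralElem_mono (h46b_ringAdj_le_top M A t) hx

theorem h46b_ringAdj_le_modelAt (t : FF M) : ringAdj M A t ≤ modelAt M A t := by
  intro x hx
  rw [h46b_mem_modelAt_iff]
  exact ⟨Polynomial.X - Polynomial.C ⟨x, hx⟩, Polynomial.monic_X_sub_C _, by simp⟩

theorem h46b_cst_mem_modelAt_top (t : FF M) (c : Kbar) :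
    cst M c ∈ modelAt M (⊤ : ValuationSubring Kbar) t :=
  h46b_ringAdj_le_modelAt M ⊤ t (Subring.subset_closure (Or.inl ⟨c, ValuationSubring.mem_top c, rfl⟩))

theorem h46b_cst_mem_modelAt (t : FF M) {c : Kbar} (hc : c ∈ A) : cst M c ∈ modelAt M A t :=
  h46b_ringAdj_le_modelAt M A t (Subring.subset_closure (Or.inl ⟨c, hc, rfl⟩))

theorem h46b_smul_eq (c : Kbar) (x : FF M) : c • x = cst M c * x :=
  Algebra.smul_def c x

/-- the chart over `ℚ̄` is a `ℚ̄`-subspace. -/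
theorem h46b_span_le_modelAt_top (t : FF M) {n : ℕ} (f : Fin n → FF M)
    (hf : ∀ i, f i ∈ modelAt M (⊤ : ValuationSubring Kbar) t) {x : FF M}
    (hx : x ∈ Submodule.span Kbar (Set.range f)) :
    x ∈ modelAt M (⊤ : ValuationSubring Kbar) t := by
  induction hx using Submodule.span_induction with
  | mem y hy =>
    obtain ⟨i, rfl⟩ := hy
    exact hf i
  | zero => exact Subring.zero_mem _
  | add y z _ _ hy hz => exact Subring.add_mem _ hy hz
  | smul c y _ hy =>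
    rw [h46b_smul_eq]
    exact Subring.mul_mem _ (h46b_cst_mem_modelAt_top M t c) hy

variable {ℓ : ℕ}

/-- clearing denominators in `ℚ̄[t]`. -/
theorem h46b_ringAdj_clear (hℓ : ℓ.Prime) (hA : A.LiesOverPrime ℓ) (t : FF M) :
    ∀ r ∈ ringAdj M (⊤ : ValuationSubring Kbar) t,
      ∃ m : ℕ, cst M (ℓ : Kbar) ^ m * r ∈ ringAdj M A t := by
  have hℓA : cst M (ℓ : Kbar) ∈ ringAdj M A t :=
    Subring.subset_closure (Or.inl ⟨(ℓ : Kbar), A.nonunits_subset hA, rfl⟩)
  intro r hr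
  induction hr using Subring.closure_induction with
  | mem y hy =>
    rcases hy with ⟨c, -, rfl⟩ | hy
    · have halg : IsAlgebraic ℤ c :=
        (IsFractionRing.isAlgebraic_iff ℤ ℚ Kbar).mpr
          ((AlgebraicClosure.isAlgebraic ℚ).isAlgebraic c)
      obtain ⟨m, hm⟩ := h46b_exists_pow_mul_mem A hℓ hA c halg
      refine ⟨m, ?_⟩
      have : cst M (ℓ : Kbar) ^ m * cst M c = cst M ((ℓ : Kbar) ^ m * c) := by
        simp only [cst, map_mul, map_pow]
      rw [this]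
      exact Subring.subset_closure (Or.inl ⟨_, hm, rfl⟩)
    · rw [Set.mem_singleton_iff] at hy
      subst hy
      refine ⟨0, ?_⟩
      rw [pow_zero, one_mul]
      exact Subring.subset_closure (Or.inr rfl)
  | zero => exact ⟨0, by rw [mul_zero]; exact Subring.zero_mem _⟩
  | one => exact ⟨0, by rw [mul_one, pow_zero]; exact Subring.one_mem _⟩
  | add y z _ _ hy hz =>
    obtain ⟨m₁, h₁⟩ := hy
    obtain ⟨m₂, h₂⟩ := hz
    refine ⟨m₁ + m₂, ?_⟩
    have e : cst M (ℓ : Kbar) ^ (m₁ + m₂) * (y + z) =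
        cst M (ℓ : Kbar) ^ m₂ * (cst M (ℓ : Kbar) ^ m₁ * y) +
          cst M (ℓ : Kbar) ^ m₁ * (cst M (ℓ : Kbar) ^ m₂ * z) := by ring
    rw [e]
    exact Subring.add_mem _ (Subring.mul_mem _ (Subring.pow_mem _ hℓA _) h₁)
      (Subring.mul_mem _ (Subring.pow_mem _ hℓA _) h₂)
  | neg y _ hy =>
    obtain ⟨m, hm⟩ := hy
    exact ⟨m, by rw [mul_neg]; exact Subring.neg_mem _ hm⟩
  | mul y z _ _ hy hz =>
    obtain ⟨m₁, h₁⟩ := hy
    obtain ⟨m₂, h₂⟩ := hz
    refine ⟨m₁ + m₂, ?_⟩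
    have e : cst M (ℓ : Kbar) ^ (m₁ + m₂) * (y * z) =
        (cst M (ℓ : Kbar) ^ m₁ * y) * (cst M (ℓ : Kbar) ^ m₂ * z) := by ring
    rw [e]
    exact Subring.mul_mem _ h₁ h₂

/-- clearing denominators in the chart. -/
theorem h46b_modelAt_clear (hℓ : ℓ.Prime) (hA : A.LiesOverPrime ℓ) (t : FF M) {x : FF M}
    (hx : x ∈ modelAt M (⊤ : ValuationSubring Kbar) t) :
    ∃ m : ℕ, cst M ((ℓ : Kbar) ^ m) * x ∈ modelAt M A t := by
  rw [h46b_mem_modelAt_iff] at hx
  have hℓA : cst M (ℓ : Kbar) ∈ ringAdj M A t :=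
    Subring.subset_closure (Or.inl ⟨(ℓ : Kbar), A.nonunits_subset hA, rfl⟩)
  obtain ⟨m, hm⟩ := h46b_isIntegralElem_clear (h46b_ringAdj_le_top M A t) (cst M (ℓ : Kbar)) hℓA
    (h46b_ringAdj_clear M A hℓ hA t) hx
  refine ⟨m, ?_⟩
  rw [h46b_mem_modelAt_iff,
    show cst M ((ℓ : Kbar) ^ m) = cst M (ℓ : Kbar) ^ m by simp only [cst, map_pow]]
  exact hm

/-- **base change for one chart.** -/
theorem h46b_chart [NeZero M] (hD : h46b_DescentHyp M) (hE : h46b_EchelonHyp M)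
    (hℓ : ℓ.Prime) (hM : ¬ ℓ ∣ M) (hA : A.LiesOverPrime ℓ) (t : FF M) (ht : IsRat t)
    (H1 : modelAt M A t ≤ gaussV A M)
    (H2 : ∀ x : FF M, x ∈ gaussV A M → ∀ c : Kbar, c ∈ A → c ≠ 0 →
      cst M c * x ∈ modelAt M A t → x ∈ modelAt M A t) :
    modelAt M A t ≤ Subring.closure
      ((fun a : Kbar => cst M a) '' (A : Set Kbar) ∪ {f | IsRat f ∧ f ∈ modelAt M A t}) := by
  intro x hx
  -- descent
  obtain ⟨n, c, f, hfrat, hfint, hxf⟩ := hD t ht x (h46b_modelAt_le_top M A t hx)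
  -- echelon
  obtain ⟨d, g, hgrat, hgV, hgf, hfg, hind⟩ := hE ℓ hℓ hM A hA n f hfrat
  -- `x` in terms of `g`
  have hxg : x ∈ Submodule.span Kbar (Set.range g) := by
    rw [hxf]
    refine Submodule.sum_mem _ fun i _ => ?_
    rw [← h46b_smul_eq]
    exact Submodule.smul_mem _ _ (hfg i)
  obtain ⟨c', hc'⟩ := (Submodule.mem_span_range_iff_exists_fun Kbar).mp hxg
  have hxg' : x = ∑ i, cst M (c' i) * g i := by
    rw [← hc']
    exact Finset.sum_congr rfl fun i _ => h46b_smul_eq M _ _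
  -- the coefficients are integral
  have hc'A : ∀ i, c' i ∈ A := hind c' (hxg' ▸ H1 hx)
  -- the `g i` are in the chart
  have hgint : ∀ i, g i ∈ modelAt M A t := by
    intro i
    have h1 : g i ∈ modelAt M (⊤ : ValuationSubring Kbar) t :=
      h46b_span_le_modelAt_top M t f hfint (hgf i)
    obtain ⟨m, hm⟩ := h46b_modelAt_clear M A hℓ hA t h1
    have hℓ0 : ((ℓ : Kbar) ^ m) ≠ 0 := pow_ne_zero _ (Nat.cast_ne_zero.mpr hℓ.ne_zero)
    exact H2 (g i) (hgV i) _ (A.pow_mem (A.nonunits_subset hA) m) hℓ0 hm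
  -- conclusion
  rw [hxg']
  refine Subring.sum_mem _ fun i _ => Subring.mul_mem _ ?_ ?_
  · exact Subring.subset_closure (Or.inl ⟨c' i, hc'A i, rfl⟩)
  · exact Subring.subset_closure (Or.inr ⟨hgrat i, hgint i⟩)

end Chart

/-! ### the two charts -/

theorem h46b_isRat_jB (M : ℕ) [NeZero M] : IsRat (jB M) := by
  refine ⟨jq, ?_, ?_⟩
  · have h := jqd_mem_full M (one_dvd M)
    rwa [qExpand_one_apply] at h
  · rw [coe_jB]
    exact Rep.h71_coeffEmb_jq Kbar

theorem h46b_isRat_jB_inv (M : ℕ) [NeZero M] : IsRat (jB M)⁻¹ := by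
  obtain ⟨y, hy, hyj⟩ := h46b_isRat_jB M
  refine ⟨y⁻¹, inv_mem hy, ?_⟩
  rw [map_inv₀, hyj]
  rfl

/-- **R-BC** from descent and echelon form. -/
theorem h46b_baseChange_of (M : ℕ) [NeZero M] (hD : h46b_DescentHyp M)
    (hE : h46b_EchelonHyp M) : IfaceBaseChange M := by
  intro ℓ hℓ hM A hA
  constructor
  · exact h46b_chart M A hD hE hℓ hM hA (jB M) (h46b_isRat_jB M)
      (modelFin_le_gaussV A M hℓ hM hA)
      (fun x hx c hc hc0 h => mem_modelFin_of_cst_mul A M hℓ hM hA x hx c hc hc0 h)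
  · exact h46b_chart M A hD hE hℓ hM hA (jB M)⁻¹ (h46b_isRat_jB_inv M)
      (modelInf_le_gaussV A M hℓ hM hA)
      (fun x hx c hc hc0 h => mem_modelInf_of_cst_mul A M hℓ hM hA x hx c hc hc0 h)

end Fermat.Agent.Red.BC
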