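import Fermat.Agent.Red.BC.Basic
import Fermat.Agent.Jac.Desc0Core

/-!
# P-RED / R-BC, part 2: `F_K` is the `K`-span of the rational functions

* `h58_le_adjoin` : the field `laurentBaseChange Kbar F₀` is the `Kbar`-algebra generated by
  the rational functions `coeffEmb Kbar g`, `g ∈ F₀`.
* `h58_exists_rep` : every element of `laurentBaseChange Kbar F₀` is a finite sum
  `∑ C (c i) * coeffEmb Kbar (g i)` with `g i ∈ F₀`.
* `h58_exists_rat_of_coeff` : an element of `laurentBaseChange Kbar F₀` with rational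
  coefficients is `coeffEmb Kbar g` for some `g ∈ F₀`.
-/

set_option autoImplicit false

open ModularCurve

noncomputable section

namespace Fermat.Agent.Red.BC

open Fermat.Agent.S28 Fermat.Agent.Red.GV Fermat.Agent.S37

section Span

variable (F₀ : IntermediateField ℚ (LaurentSeries ℚ))

/-- the image of `F₀` in `Kbar((q))`, as a subfield. -/
def h58_imgField : Subfield (LaurentSeries Kbar) :=
  F₀.toSubfield.map (coeffEmb Kbar)

theorem h58_mem_imgField {y : LaurentSeries Kbar} :
    y ∈ h58_imgField F₀ ↔ ∃ g ∈ F₀, coeffEmb Kbar g = y := Iff.rfl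

/-- the ring homomorphism `ℚ → image of F₀`. -/
def h58_ratHom : ℚ →+* h58_imgField F₀ :=
  ((coeffEmb Kbar).comp (algebraMap ℚ (LaurentSeries ℚ))).codRestrict (h58_imgField F₀)
    (fun r => ⟨algebraMap ℚ (LaurentSeries ℚ) r, F₀.algebraMap_mem r, rfl⟩)

/-- constants are integral over the image of `F₀`. -/
theorem h58_isIntegral_const (c : Kbar) :
    IsIntegral (h58_imgField F₀) (algebraMap Kbar (LaurentSeries Kbar) c) := by
  have hc : IsIntegral ℚ c := ((AlgebraicClosure.isAlgebraic ℚ).isAlgebraic c).isIntegral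
  obtain ⟨p, hp, hpc⟩ := hc
  refine ⟨p.map (h58_ratHom F₀), hp.map _, ?_⟩
  rw [Polynomial.eval₂_map]
  have hcomp : (algebraMap (h58_imgField F₀) (LaurentSeries Kbar)).comp (h58_ratHom F₀) =
      (algebraMap Kbar (LaurentSeries Kbar)).comp (algebraMap ℚ Kbar) :=
    RingHom.ext_rat _ _
  rw [hcomp, ← Polynomial.hom_eval₂, hpc, map_zero]

/-- the algebra generated by the constants over the image of `F₀`. -/
def h58_adj : Subalgebra (h58_imgField F₀) (LaurentSeries Kbar) :=
  Algebra.adjoin (h58_imgField F₀) (Set.range (algebraMap Kbar (LaurentSeries Kbar)))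

theorem h58_adj_isIntegral {x : LaurentSeries Kbar} (hx : x ∈ h58_adj F₀) :
    IsIntegral (h58_imgField F₀) x := by
  have hle : h58_adj F₀ ≤ integralClosure (h58_imgField F₀) (LaurentSeries Kbar) := by
    refine Algebra.adjoin_le ?_
    rintro _ ⟨c, rfl⟩
    exact h58_isIntegral_const F₀ c
  exact hle hx

theorem h58_adj_inv_mem {x : LaurentSeries Kbar} (hx : x ∈ h58_adj F₀) :
    x⁻¹ ∈ h58_adj F₀ :=
  (h58_adj F₀).inv_mem_of_algebraic (x := ⟨x, hx⟩) (h58_adj_isIntegral F₀ hx).isAlgebraic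

theorem h58_adj_le_adjoin {x : LaurentSeries Kbar} (hx : x ∈ h58_adj F₀) :
    x ∈ Algebra.adjoin Kbar (⇑(coeffEmb Kbar) '' (F₀ : Set (LaurentSeries ℚ))) := by
  unfold h58_adj at hx
  induction hx using Algebra.adjoin_induction with
  | mem y hy =>
    obtain ⟨c, rfl⟩ := hy
    exact Subalgebra.algebraMap_mem _ c
  | algebraMap e =>
    obtain ⟨g, hg, hge⟩ := (h58_mem_imgField F₀).mp e.2
    have : algebraMap (h58_imgField F₀) (LaurentSeries Kbar) e = coeffEmb Kbar g := hge.symm
    rw [this]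
    exact Algebra.subset_adjoin ⟨g, hg, rfl⟩
  | add y z _ _ hy hz => exact add_mem hy hz
  | mul y z _ _ hy hz => exact mul_mem hy hz

/-- **`F_K` is generated as a `Kbar`-algebra by the rational functions.** -/
theorem h58_le_adjoin {x : LaurentSeries Kbar} (hx : x ∈ laurentBaseChange Kbar F₀) :
    x ∈ Algebra.adjoin Kbar (⇑(coeffEmb Kbar) '' (F₀ : Set (LaurentSeries ℚ))) := by
  apply h58_adj_le_adjoin
  rw [mem_laurentBaseChange_iff] at hx
  induction hx using Subfield.closure_induction with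
  | mem y hy =>
    rcases hy with ⟨a, rfl⟩ | ⟨z, hz, rfl⟩
    · exact Algebra.subset_adjoin ⟨a, rfl⟩
    · exact (h58_adj F₀).algebraMap_mem ⟨coeffEmb Kbar z, z, hz, rfl⟩
  | one => exact one_mem _
  | add x y _ _ hx hy => exact add_mem hx hy
  | neg x _ hx => exact neg_mem hx
  | inv x _ hx => exact h58_adj_inv_mem F₀ hx
  | mul x y _ _ hx hy => exact mul_mem hx hy

/-- every element of `F_K` is a finite `Kbar`-linear combination of rational functions. -/
theorem h58_exists_rep {x : LaurentSeries Kbar} (hx : x ∈ laurentBaseChange Kbar F₀) :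
    ∃ (ι : Type) (s : Finset ι) (c : ι → Kbar) (g : ι → LaurentSeries ℚ),
      (∀ i, g i ∈ F₀) ∧ x = ∑ i ∈ s, HahnSeries.C (c i) * coeffEmb Kbar (g i) := by
  classical
  have h1 := h58_le_adjoin F₀ hx
  obtain ⟨w, hw, hxw⟩ := Fermat.Agent.Jac.h49_adjoin_le_repSet
    (Module.Basis.ofVectorSpace ℚ Kbar) F₀ (z := x) h1
  exact ⟨_, w.support, fun i => Module.Basis.ofVectorSpace ℚ Kbar i, fun i => w i, hw, hxw⟩

/-- an element of `F_K` with rational coefficients comes from `F₀`. -/
theorem h58_exists_rat_of_coeff {x : LaurentSeries Kbar} (hx : x ∈ laurentBaseChange Kbar F₀)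
    (hc : ∀ n : ℤ, x.coeff n ∈ Set.range (algebraMap ℚ Kbar)) :
    ∃ g ∈ F₀, coeffEmb Kbar g = x := by
  obtain ⟨ψ, hψ⟩ := LinearMap.exists_leftInverse_of_injective (Algebra.linearMap ℚ Kbar)
    (LinearMap.ker_eq_bot.mpr (algebraMap ℚ Kbar).injective)
  have hψ' : ∀ r : ℚ, ψ (algebraMap ℚ Kbar r) = r := fun r => by
    have := LinearMap.congr_fun hψ r
    simpa using this
  set g : LaurentSeries ℚ := HahnSeries.map x ψ with hg
  have hgx : coeffEmb Kbar g = x := by
    ext n
    obtain ⟨r, hr⟩ := hc n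
    rw [coeffEmb_coeff, hg, HahnSeries.map_coeff, ← hr, hψ']
  refine ⟨g, ?_, hgx⟩
  refine Fermat.Agent.Jac.h49_mem_of_coeffMap_mem_adjoin (K := ℚ) (L := Kbar) F₀ g ?_
  have : coeffMap (algebraMap ℚ Kbar) g = x := hgx
  rw [this]
  exact hx

end Span

end Fermat.Agent.Red.BC
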