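import Fermat.Agent.Red.BC.Ind

/-!
# P-RED / R-BC: base change of the normal model

`Fermat.Agent.Red.BC.ifaceBaseChange : IfaceBaseChange M`: for `ℓ ∤ M` and a valuation subring
`A` of `ℚ̄` over `ℓ`, both charts of the normal model of `X₀(M)` over `A` are generated, as
rings, by the constants in `A` and the functions of the chart with rational `q`-expansion.

Proof (helper58).  Let `x` be integral over `A[j]`.
* (Galois descent, `Descent.lean`) the `ℚ̄`-span of the conjugates of `x` is finite dimensional,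
  stable under the Galois action and consists of elements integral over `ℚ̄[j]`; its echelon
  basis has rational coefficients, hence `x = ∑ c_s f_s` with `f_s` rational and integral over
  `A[j]` and `c_s ∈ ℚ̄`.
* (Induction, `Rel.lean`, `Ind.lean`) if some `c_s ∉ A`, divide by a coefficient of maximal
  valuation and reduce modulo `𝔪_A`: the reductions of the `f_s` have coefficients in `𝔽_ℓ`
  (`RatRed.lean`), so by linear disjointness of `k` and `𝔽_ℓ((q))` over `𝔽_ℓ` there is a relation
  `∑ m_s f_s ≡ 0 mod ℓ` with integers `m_s`, one of which is `1`; by the `q`-expansion principle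
  of the Gauss valuation library (`core_fin_val`, `core_inf_val`) `h = ℓ⁻¹ ∑ m_s f_s` is again
  rational and integral, and `f_{s₀}` can be eliminated.
-/

set_option autoImplicit false

open ModularCurve

noncomputable section

namespace Fermat.Agent.Red.BC

open Fermat.Agent.S28 Fermat.Agent.Red.GV Fermat.Agent.Red.GV.Asm Fermat.Agent.S37

section Charts

variable (A : ValuationSubring Kbar) (N ℓ : ℕ) [NeZero N] [Fact ℓ.Prime]
  (hA : A.LiesOverPrime ℓ) (D : IgusaInput N ℓ)

include hA D in
theorem h58_chartHyp_fin : h58_ChartHyp A N (jK Kbar) where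
  fix σ := coeffMap_jqModC _
  g2 x hx hint :=
    inOTA_of_isIntegralElem_fin A _ N ℓ (h58_isResidueMap A ℓ hA) D x hx hint
  g3 x hx hOT c hc hint :=
    core_fin_val A _ N ℓ (h58_isResidueMap A ℓ hA) D x hx hOT c hc hint

include hA D in
theorem h58_chartHyp_inf : h58_ChartHyp A N (jK Kbar)⁻¹ where
  fix σ := by
    rw [map_inv₀]
    congr 1
    exact coeffMap_jqModC _
  g2 x hx hint :=
    inOTA_of_isIntegralElem_inf A _ N ℓ (h58_isResidueMap A ℓ hA) D x hx hint
  g3 x hx hOT c hc hint :=
    core_inf_val A _ N ℓ (h58_isResidueMap A ℓ hA) D x hx hOT c hc hint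

end Charts

section Transfer

variable (M : ℕ) [NeZero M] (A : ValuationSubring Kbar)

theorem h58_coe_jB : ((jB M : FF M) : LaurentSeries Kbar) = jK Kbar :=
  Rep.h71_coeffEmb_jq Kbar

theorem h58_coe_jB_inv : (((jB M)⁻¹ : FF M) : LaurentSeries Kbar) = (jK Kbar)⁻¹ := by
  rw [← h58_coe_jB M]
  rfl

/-- transfer from `q`-expansions back to the function field. -/
theorem h58_transfer (t : FF M) {y : LaurentSeries Kbar}
    (hy : y ∈ h58_SA A M (t : LaurentSeries Kbar)) :
    ∃ x' : FF M, (x' : LaurentSeries Kbar) = y ∧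
      x' ∈ Subring.closure ((fun a : Kbar => cst M a) '' (A : Set Kbar) ∪
        {f | IsRat f ∧ f ∈ modelAt M A t}) := by
  unfold h58_SA at hy
  induction hy using Submodule.span_induction with
  | mem f hf =>
    obtain ⟨⟨g, hg, hgf⟩, hint⟩ := hf
    have hfF : f ∈ modularFunctionFieldBar M := by
      rw [← hgf]
      exact coeffEmb_mem_laurentBaseChange Kbar hg
    refine ⟨⟨f, hfF⟩, rfl, Subring.subset_closure (Or.inr ⟨⟨g, hg, hgf⟩, ?_⟩)⟩
    exact (h58_mem_modelAt_iff M A t ⟨f, hfF⟩).mpr hint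
  | zero => exact ⟨0, rfl, zero_mem _⟩
  | add y z _ _ hy hz =>
    obtain ⟨y', hy', hy''⟩ := hy
    obtain ⟨z', hz', hz''⟩ := hz
    exact ⟨y' + z', by rw [← hy', ← hz']; rfl, add_mem hy'' hz''⟩
  | smul a y _ hy =>
    obtain ⟨y', hy', hy''⟩ := hy
    refine ⟨cst M (a : Kbar) * y', ?_, mul_mem (Subring.subset_closure
      (Or.inl ⟨(a : Kbar), a.2, rfl⟩)) hy''⟩
    rw [h58_smulA, h58_C_eq_algebraMap, ← hy']
    rfl

end Transfer

/-- the statement for one chart. -/
theorem h58_chart (M : ℕ) [NeZero M] (A : ValuationSubring Kbar) (ℓ : ℕ) [Fact ℓ.Prime]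
    (hA : A.LiesOverPrime ℓ) (D : IgusaInput M ℓ) (t : FF M)
    (H : h58_ChartHyp A M (t : LaurentSeries Kbar)) :
    modelAt M A t ≤ Subring.closure ((fun a : Kbar => cst M a) '' (A : Set Kbar) ∪
      {f | IsRat f ∧ f ∈ modelAt M A t}) := by
  intro x hx
  have hint := (h58_mem_modelAt_iff M A t x).mp hx
  have hcore := h58_core ℓ hA D H (x : LaurentSeries Kbar) x.2 hint
  obtain ⟨x', hx', hx''⟩ := h58_transfer M A t hcore
  have : x' = x := Subtype.ext hx'
  rwa [this] at hx''

/-- **R-BC: base change of the normal model.** -/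
theorem ifaceBaseChange (M : ℕ) [NeZero M] : Fermat.Agent.S37.IfaceBaseChange M := by
  intro ℓ hℓ hℓM A hA
  haveI : Fact ℓ.Prime := ⟨hℓ⟩
  obtain ⟨D⟩ := Fermat.Agent.S28.exists_igusaInput M ℓ hℓM
  constructor
  · refine h58_chart M A ℓ hA D (jB M) ?_
    rw [h58_coe_jB]
    exact h58_chartHyp_fin A M ℓ hA D
  · refine h58_chart M A ℓ hA D (jB M)⁻¹ ?_
    rw [h58_coe_jB_inv]
    exact h58_chartHyp_inf A M ℓ hA D

end Fermat.Agent.Red.BC
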