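import Fermat.Agent.Red.GV.Asm4
import Fermat.Agent.S37.Skeleton
import Fermat.Agent.S28.PartOne

/-!
# P-RED / R-BC (base change of the normal model), part 1: basic bridges

* `h58_isResidueMap` : the residue map of a valuation subring over `ℓ` satisfies the standing
  hypotheses of the Gauss valuation library.
* `h58_exists_pow_mul_mem` : every algebraic number becomes `A`-integral after multiplication
  by a power of `ℓ`.
* `h58_mem_modelAt_iff` : membership in the chart `modelAt M A t` in terms of
  `RingHom.IsIntegralElem` on `q`-expansions.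
-/

set_option autoImplicit false

open ModularCurve

noncomputable section

namespace Fermat.Agent.Red.BC

open Fermat.Agent.S28 Fermat.Agent.Red.GV Fermat.Agent.S37

/-- the residue map of `A` satisfies the standing hypotheses of the Gauss valuation library. -/
theorem h58_isResidueMap (A : ValuationSubring Kbar) (ℓ : ℕ) (hA : A.LiesOverPrime ℓ) :
    IsResidueMap A (IsLocalRing.residue A) ℓ where
  ker_eq a := by
    rw [IsLocalRing.residue_eq_zero_iff, ValuationSubring.coe_mem_nonunits_iff]
  natCast_mem := hA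

theorem h58_C_eq_algebraMap (c : Kbar) :
    (HahnSeries.C c : LaurentSeries Kbar) = algebraMap Kbar (LaurentSeries Kbar) c := by
  rw [algebraMap_laurentSeries_eq_single]
  rfl

/-- integral algebraic numbers lie in every valuation subring. -/
theorem h58_mem_of_isIntegral (A : ValuationSubring Kbar) {w : Kbar} (hw : IsIntegral ℤ w) :
    w ∈ A := by
  have h1 : IsIntegral A w := hw.tower_top
  obtain ⟨y, hy⟩ := IsIntegrallyClosed.isIntegral_iff.mp h1
  rw [← hy]
  exact y.2

/-- a natural number prime to `ℓ` is a unit of `A`. -/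
theorem h58_inv_natCast_mem (A : ValuationSubring Kbar) (ℓ : ℕ) (hℓ : ℓ.Prime)
    (hA : A.LiesOverPrime ℓ) (u : ℕ) (hu : ¬ ℓ ∣ u) : ((u : Kbar))⁻¹ ∈ A := by
  haveI : Fact ℓ.Prime := ⟨hℓ⟩
  have hπ := h58_isResidueMap A ℓ hA
  have hchar := Base.h80_charP A (IsLocalRing.residue A) ℓ hπ
  have h1 : IsLocalRing.residue A ((u : ℕ) : A) ≠ 0 := by
    rw [map_natCast]
    intro h0
    exact hu ((CharP.cast_eq_zero_iff _ ℓ u).mp h0)
  have h2 := Base.h80_inv_mem A (IsLocalRing.residue A) ℓ hπ ((u : ℕ) : A) h1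
  simpa using h2

/-- every algebraic number becomes `A`-integral after multiplication by a power of `ℓ`. -/
theorem h58_exists_pow_mul_mem (A : ValuationSubring Kbar) (ℓ : ℕ) (hℓ : ℓ.Prime)
    (hA : A.LiesOverPrime ℓ) (c : Kbar) : ∃ n : ℕ, (ℓ : Kbar) ^ n * c ∈ A := by
  have halg : IsAlgebraic ℤ c :=
    (IsFractionRing.isAlgebraic_iff ℤ ℚ Kbar).mpr
      ((AlgebraicClosure.isAlgebraic ℚ).isAlgebraic c)
  obtain ⟨y, hy0, hy⟩ := halg.exists_integral_multiple
  have hyA : (y : Kbar) * c ∈ A := by
    have := h58_mem_of_isIntegral A hy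
    rwa [zsmul_eq_mul] at this
  -- `|y| = ℓ ^ n * u` with `ℓ ∤ u`
  have hn0 : y.natAbs ≠ 0 := Int.natAbs_ne_zero.mpr hy0
  obtain ⟨n, u, hu, hnu⟩ := Nat.exists_eq_pow_mul_and_not_dvd hn0 ℓ hℓ.ne_one
  have huA := h58_inv_natCast_mem A ℓ hℓ hA u hu
  have hu0 : (u : Kbar) ≠ 0 := by
    intro h
    have : u = 0 := by exact_mod_cast h
    exact hu (this ▸ dvd_zero ℓ)
  have habs : ((y.natAbs : ℕ) : Kbar) * c ∈ A := by
    rcases Int.natAbs_eq y with h | h
    · have : ((y.natAbs : ℕ) : Kbar) = (y : Kbar) := by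
        conv_rhs => rw [h]
        simp
      rwa [this]
    · have : ((y.natAbs : ℕ) : Kbar) = -(y : Kbar) := by
        conv_rhs => rw [h]
        simp
      rw [this, neg_mul]
      exact A.neg_mem _ hyA
  refine ⟨n, ?_⟩
  have h3 : (ℓ : Kbar) ^ n * c = ((u : Kbar))⁻¹ * (((y.natAbs : ℕ) : Kbar) * c) := by
    rw [hnu]
    push_cast
    field_simp
  rw [h3]
  exact A.mul_mem _ _ huA habs

/-- a uniform exponent for a finite family. -/
theorem h58_exists_pow_mul_mem_finset (A : ValuationSubring Kbar) (ℓ : ℕ) (hℓ : ℓ.Prime)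
    (hA : A.LiesOverPrime ℓ) {ι : Type*} (s : Finset ι) (c : ι → Kbar) :
    ∃ n : ℕ, ∀ i ∈ s, (ℓ : Kbar) ^ n * c i ∈ A := by
  classical
  induction s using Finset.induction_on with
  | empty => exact ⟨0, fun i hi => by simp at hi⟩
  | insert a s ha ih =>
    obtain ⟨n, hn⟩ := ih
    obtain ⟨m, hm⟩ := h58_exists_pow_mul_mem A ℓ hℓ hA (c a)
    refine ⟨n + m, fun i hi => ?_⟩
    rcases Finset.mem_insert.mp hi with rfl | hi
    · rw [pow_add, mul_assoc]
      exact A.mul_mem _ _ (A.pow_mem (natCast_mem A ℓ) n) hm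
    · rw [pow_add, mul_comm ((ℓ : Kbar) ^ n), mul_assoc]
      exact A.mul_mem _ _ (A.pow_mem (natCast_mem A ℓ) m) (hn i hi)

/-! ### The chart `modelAt M A t` in terms of `q`-expansions -/

section Chart

variable (M : ℕ) (A : ValuationSubring Kbar)

/-- the inclusion `FF M → Kbar((q))`. -/
def h58_val : FF M →+* LaurentSeries Kbar := (modularFunctionFieldBar M).val.toRingHom

@[simp] theorem h58_val_apply (x : FF M) : h58_val M x = (x : LaurentSeries Kbar) := rfl

theorem h58_val_injective : Function.Injective (h58_val M) := Subtype.val_injective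

/-- evaluation `A[Y] → FF M`, `Y ↦ t`. -/
def h58_evalFF (t : FF M) : Polynomial A →+* FF M :=
  Polynomial.eval₂RingHom ((algebraMap Kbar (FF M)).comp A.subtype) t

theorem h58_val_comp_evalFF (t : FF M) :
    (h58_val M).comp (h58_evalFF M A t) = evalA A (t : LaurentSeries Kbar) := by
  apply Polynomial.ringHom_ext
  · intro a
    simp only [RingHom.comp_apply, h58_evalFF, evalA, Polynomial.coe_eval₂RingHom,
      Polynomial.eval₂_C, h58_val_apply]
    rw [h58_C_eq_algebraMap]
    rfl
  · simp only [RingHom.comp_apply, h58_evalFF, evalA, Polynomial.coe_eval₂RingHom,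
      Polynomial.eval₂_X, h58_val_apply]

theorem h58_evalFF_mem (t : FF M) (p : Polynomial A) : h58_evalFF M A t p ∈ ringAdj M A t := by
  have hC : ∀ a : A, cst M (a : Kbar) ∈ ringAdj M A t := fun a =>
    Subring.subset_closure (Or.inl ⟨(a : Kbar), a.2, rfl⟩)
  have hX : t ∈ ringAdj M A t := Subring.subset_closure (Or.inr rfl)
  induction p using Polynomial.induction_on' with
  | add p q hp hq => rw [map_add]; exact add_mem hp hq
  | monomial n a =>
    have : h58_evalFF M A t (Polynomial.monomial n a) = cst M (a : Kbar) * t ^ n := by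
      simp [h58_evalFF, Polynomial.eval₂_monomial]
    rw [this]
    exact mul_mem (hC a) (pow_mem hX n)

theorem h58_ringAdj_le_range (t : FF M) : ringAdj M A t ≤ (h58_evalFF M A t).range := by
  refine Subring.closure_le.mpr ?_
  rintro y (⟨a, ha, rfl⟩ | rfl)
  · exact ⟨Polynomial.C ⟨a, ha⟩, by simp [h58_evalFF]⟩
  · exact ⟨Polynomial.X, by simp [h58_evalFF]⟩

set_option synthInstance.maxHeartbeats 400000 in
/-- **Bridge**: membership in the chart `modelAt M A t` is integrality of the `q`-expansion
over `A[t]`. -/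
theorem h58_mem_modelAt_iff (t x : FF M) :
    x ∈ modelAt M A t ↔ (evalA A (t : LaurentSeries Kbar)).IsIntegralElem
      (x : LaurentSeries Kbar) := by
  rw [← h58_val_comp_evalFF]
  constructor
  · intro hx
    have hx' : IsIntegral (ringAdj M A t) x := hx
    obtain ⟨p, hp, hpx⟩ := hx'
    set p' : Polynomial (FF M) := p.map (algebraMap (ringAdj M A t) (FF M)) with hp'
    have hp'm : p'.Monic := hp.map _
    have hlift : p' ∈ Polynomial.lifts (h58_evalFF M A t) := by
      rw [Polynomial.lifts_iff_coeff_lifts]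
      intro n
      rw [hp', Polynomial.coeff_map]
      exact h58_ringAdj_le_range M A t (p.coeff n).2
    obtain ⟨q, hq, -, hqm⟩ := Polynomial.lifts_and_degree_eq_and_monic hlift hp'm
    have h1 : (h58_evalFF M A t).IsIntegralElem x := by
      refine ⟨q, hqm, ?_⟩
      rw [← Polynomial.eval_map, hq, hp', Polynomial.eval_map]
      exact hpx
    exact h1.map (h58_val M)
  · intro hx
    have h1 : (h58_evalFF M A t).IsIntegralElem x :=
      RingHom.IsIntegralElem.of_map (h58_val_injective M) hx
    obtain ⟨q, hqm, hq⟩ := h1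
    let f₁ : Polynomial A →+* ringAdj M A t :=
      (h58_evalFF M A t).codRestrict (ringAdj M A t) (h58_evalFF_mem M A t)
    have hcomp : (algebraMap (ringAdj M A t) (FF M)).comp f₁ = h58_evalFF M A t := by
      ext <;> rfl
    show IsIntegral (ringAdj M A t) x
    refine ⟨q.map f₁, hqm.map _, ?_⟩
    rw [Polynomial.eval₂_map, hcomp]
    exact hq

end Chart

end Fermat.Agent.Red.BC
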