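import Fermat.Agent.Red.BC.BridgeQ

/-!
# P-RED / R-MODEL bridge, part 3: from `ℚ[t]` to `ℤ_(ℓ)[t]`

* `h58_scalingQ` : an element integral over `ℚ[t]` becomes integral over `ℤ_(ℓ)[t]` after
  multiplication by a power of `ℓ`;
* `h58_int_of_pow_fin`, `h58_int_of_pow_inf` : for a rational function which is Gauss-integral,
  the power of `ℓ` can be removed (`q`-expansion principle of S28, `core_fin`, `core_inf`).
-/

set_option autoImplicit false
set_option linter.unusedSectionVars false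

open ModularCurve

noncomputable section

namespace Fermat.Agent.Red.BC

open Fermat.Agent.S28 Fermat.Agent.Red.GV Fermat.Agent.S37

section ScalingQ

variable (ℓ : ℕ) [Fact ℓ.Prime]

/-- every rational number is moved into `ℤ_(ℓ)` by a large power of `ℓ`. -/
theorem h58_exists_pow_mem_zl (x : ℚ) :
    ∃ n : ℕ, ∀ m : ℕ, n ≤ m → (ℓ : ℚ) ^ m * x ∈ GaloisRep.ratLocalizedAt ℓ := by
  have hℓ : ℓ.Prime := Fact.out
  have hℓ0 : (ℓ : ℚ) ≠ 0 := Nat.cast_ne_zero.mpr hℓ.ne_zero
  by_cases hx : x = 0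
  · refine ⟨0, fun m _ => ?_⟩
    rw [hx, mul_zero]
    exact zero_mem _
  refine ⟨(-padicValRat ℓ x).toNat, fun m hm => ?_⟩
  apply mem_ratLocalizedAt_of_padicValRat_nonneg
  rw [padicValRat.mul (pow_ne_zero _ hℓ0) hx, padicValRat.pow (ℓ : ℚ),
    padicValRat.self hℓ.one_lt]
  have : (-padicValRat ℓ x) ≤ (m : ℤ) := by
    refine le_trans (Int.self_le_toNat _) ?_
    exact_mod_cast hm
  linarith

/-- a uniform power of `ℓ` for a finite family. -/
theorem h58_exists_pow_mem_zl_finset {ι : Type*} (s : Finset ι) (f : ι → ℚ) :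
    ∃ n : ℕ, ∀ i ∈ s, (ℓ : ℚ) ^ n * f i ∈ GaloisRep.ratLocalizedAt ℓ := by
  classical
  have key : ∃ n : ℕ, ∀ i ∈ s, ∀ m : ℕ, n ≤ m →
      (ℓ : ℚ) ^ m * f i ∈ GaloisRep.ratLocalizedAt ℓ := by
    induction s using Finset.induction_on with
    | empty => exact ⟨0, fun i hi => absurd hi (Finset.notMem_empty i)⟩
    | insert a s ha ih =>
      obtain ⟨n₁, hn₁⟩ := ih
      obtain ⟨n₂, hn₂⟩ := h58_exists_pow_mem_zl ℓ (f a)
      refine ⟨max n₁ n₂, fun i hi m hm => ?_⟩
      rcases Finset.mem_insert.mp hi with rfl | hi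
      · exact hn₂ m (le_trans (le_max_right _ _) hm)
      · exact hn₁ i hi m (le_trans (le_max_left _ _) hm)
  obtain ⟨n, hn⟩ := key
  exact ⟨n, fun i hi => hn i hi n le_rfl⟩

/-- a uniform power of `ℓ` moving all coefficients of a polynomial in two variables into
`ℤ_(ℓ)`. -/
theorem h58_exists_pow_coeffQ (P : Polynomial (Polynomial ℚ)) :
    ∃ n : ℕ, ∀ i j : ℕ, (ℓ : ℚ) ^ n * (P.coeff i).coeff j ∈ GaloisRep.ratLocalizedAt ℓ := by
  classical
  set B : ℕ := P.support.sup (fun i => (P.coeff i).natDegree) with hB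
  obtain ⟨n, hn⟩ := h58_exists_pow_mem_zl_finset ℓ
    (P.support ×ˢ Finset.range (B + 1)) (fun ij : ℕ × ℕ => (P.coeff ij.1).coeff ij.2)
  refine ⟨n, fun i j => ?_⟩
  by_cases hi : i ∈ P.support
  · by_cases hj : j ≤ B
    · exact hn (i, j) (Finset.mem_product.mpr ⟨hi, Finset.mem_range.mpr (Nat.lt_succ_of_le hj)⟩)
    · have hdeg : (P.coeff i).natDegree ≤ B :=
        Finset.le_sup (f := fun i => (P.coeff i).natDegree) hi
      have : (P.coeff i).coeff j = 0 :=
        Polynomial.coeff_eq_zero_of_natDegree_lt (by omega)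
      rw [this, mul_zero]
      exact zero_mem _
  · have : P.coeff i = 0 := Polynomial.notMem_support_iff.mp hi
    rw [this, Polynomial.coeff_zero, mul_zero]
    exact zero_mem _

theorem h58_mem_range_mapQ (p : Polynomial ℚ)
    (hp : ∀ j, p.coeff j ∈ GaloisRep.ratLocalizedAt ℓ) :
    p ∈ Set.range (Polynomial.mapRingHom (GaloisRep.ratLocalizedAt ℓ).subtype) := by
  have : p ∈ Polynomial.lifts (GaloisRep.ratLocalizedAt ℓ).subtype := by
    rw [Polynomial.lifts_iff_coeff_lifts]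
    intro j
    exact ⟨⟨p.coeff j, hp j⟩, rfl⟩
  obtain ⟨q, hq⟩ := (Polynomial.mem_lifts p).mp this
  exact ⟨q, hq⟩

theorem h58_evalAt_eq_comp (t : LaurentSeries ℚ) :
    evalAt (GaloisRep.ratLocalizedAt ℓ) t =
      (evalAtQ t).comp (Polynomial.mapRingHom (GaloisRep.ratLocalizedAt ℓ).subtype) :=
  RingHom.ext fun Q => by
    rw [Fermat.Agent.S28.Asm.evalAt_eq_evalAtQ_map']
    rfl

theorem h58_evalAtQ_C (t : LaurentSeries ℚ) (c : ℚ) :
    evalAtQ t (Polynomial.C c) = algebraMap ℚ (LaurentSeries ℚ) c := by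
  simp [evalAtQ]

/-- **Scaling**: an element integral over `ℚ[t]` becomes integral over `ℤ_(ℓ)[t]` after
multiplication by a power of `ℓ`. -/
theorem h58_scalingQ (t : LaurentSeries ℚ) {v : LaurentSeries ℚ}
    (hv : (evalAtQ t).IsIntegralElem v) :
    ∃ n : ℕ, (evalAt (GaloisRep.ratLocalizedAt ℓ) t).IsIntegralElem
      ((ℓ : LaurentSeries ℚ) ^ n * v) := by
  obtain ⟨P, hP, hPv⟩ := hv
  obtain ⟨n, hn⟩ := h58_exists_pow_coeffQ ℓ P
  refine ⟨n, ?_⟩
  set s : Polynomial ℚ := Polynomial.C ((ℓ : ℚ) ^ n) with hs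
  have hsmem : s ∈ (Polynomial.mapRingHom (GaloisRep.ratLocalizedAt ℓ).subtype).range := by
    refine h58_mem_range_mapQ ℓ s fun j => ?_
    rw [hs, Polynomial.coeff_C]
    split_ifs
    · exact pow_mem (natCast_mem_ratLocalizedAt ℓ ℓ) n
    · exact zero_mem _
  have hcoef : ∀ i, s * P.coeff i ∈
      (Polynomial.mapRingHom (GaloisRep.ratLocalizedAt ℓ).subtype).range := by
    intro i
    refine h58_mem_range_mapQ ℓ _ fun j => ?_
    rw [hs, Polynomial.coeff_C_mul]
    exact hn i j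
  have hQ : Polynomial.scaleRoots P s ∈
      Polynomial.lifts (Polynomial.mapRingHom (GaloisRep.ratLocalizedAt ℓ).subtype) := by
    rw [Polynomial.lifts_iff_coeff_lifts]
    intro i
    rw [Polynomial.coeff_scaleRoots]
    show _ ∈ ((Polynomial.mapRingHom (GaloisRep.ratLocalizedAt ℓ).subtype).range :
      Set (Polynomial ℚ))
    rcases lt_trichotomy i P.natDegree with hi | hi | hi
    · have h1 : P.natDegree - i = (P.natDegree - i - 1) + 1 := by omega
      have h2 : P.coeff i * s ^ (P.natDegree - i - 1 + 1) =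
          s ^ (P.natDegree - i - 1) * (s * P.coeff i) := by ring
      rw [h1, h2]
      exact mul_mem (pow_mem hsmem _) (hcoef i)
    · rw [hi, Nat.sub_self, pow_zero, mul_one]
      have : P.coeff P.natDegree = 1 := hP
      rw [this]
      exact one_mem _
    · rw [Polynomial.coeff_eq_zero_of_natDegree_lt hi, zero_mul]
      exact zero_mem _
  obtain ⟨Q', hQ', -, hQ'm⟩ := Polynomial.lifts_and_degree_eq_and_monic hQ
    ((Polynomial.monic_scaleRoots_iff s).mpr hP)
  refine ⟨Q', hQ'm, ?_⟩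
  have hcast : ((ℓ : LaurentSeries ℚ)) ^ n = evalAtQ t s := by
    rw [hs, h58_evalAtQ_C, map_pow, map_natCast]
  rw [h58_evalAt_eq_comp, ← Polynomial.eval₂_map, hQ', hcast]
  exact Polynomial.scaleRoots_eval₂_eq_zero _ hPv

end ScalingQ

section Core

variable (N ℓ : ℕ) [NeZero N] [Fact ℓ.Prime] (D : IgusaInput N ℓ)

theorem h58_inOT_natCast_mul {x : LaurentSeries ℚ} (hx : InOT ℓ x) :
    InOT ℓ ((ℓ : LaurentSeries ℚ) * x) := by
  obtain ⟨Q, hQ, y, hy⟩ := hx
  refine ⟨Q, hQ, (ℓ : LaurentSeries (GaloisRep.ratLocalizedAt ℓ)) * y, ?_⟩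
  rw [map_mul, map_natCast, hy]
  ring

theorem h58_inOT_pow_mul {x : LaurentSeries ℚ} (hx : InOT ℓ x) (n : ℕ) :
    InOT ℓ ((ℓ : LaurentSeries ℚ) ^ n * x) := by
  induction n with
  | zero => rwa [pow_zero, one_mul]
  | succ n ih =>
    rw [pow_succ', mul_assoc]
    exact h58_inOT_natCast_mul ℓ ih

include D in
/-- removing a power of `ℓ`, finite chart. -/
theorem h58_int_of_pow_fin (x : LaurentSeries ℚ) (hx : x ∈ modularFunctionFieldFull N)
    (hOT : InOT ℓ x) (n : ℕ)
    (h : (evalAt (GaloisRep.ratLocalizedAt ℓ) jq).IsIntegralElem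
      ((ℓ : LaurentSeries ℚ) ^ n * x)) :
    (evalAt (GaloisRep.ratLocalizedAt ℓ) jq).IsIntegralElem x := by
  induction n with
  | zero => rwa [pow_zero, one_mul] at h
  | succ n ih =>
    refine ih ?_
    refine Fermat.Agent.S28.Asm.core_fin N ℓ D _
      (mul_mem (pow_mem (natCast_mem _ ℓ) n) hx) (h58_inOT_pow_mul ℓ hOT n) ?_
    rwa [pow_succ', mul_assoc] at h

include D in
/-- removing a power of `ℓ`, chart at infinity. -/
theorem h58_int_of_pow_inf (x : LaurentSeries ℚ) (hx : x ∈ modularFunctionFieldFull N)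
    (hOT : InOT ℓ x) (n : ℕ)
    (h : (evalAt (GaloisRep.ratLocalizedAt ℓ) jq⁻¹).IsIntegralElem
      ((ℓ : LaurentSeries ℚ) ^ n * x)) :
    (evalAt (GaloisRep.ratLocalizedAt ℓ) jq⁻¹).IsIntegralElem x := by
  induction n with
  | zero => rwa [pow_zero, one_mul] at h
  | succ n ih =>
    refine ih ?_
    refine Fermat.Agent.S28.Asm.core_inf N ℓ D _
      (mul_mem (pow_mem (natCast_mem _ ℓ) n) hx) (h58_inOT_pow_mul ℓ hOT n) ?_
    rwa [pow_succ', mul_assoc] at h

end Core

end Fermat.Agent.Red.BC
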