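import Fermat.Agent.Red.BC.BridgeOT
import Fermat.Agent.Red.BC.BridgeZl
import Fermat.Agent.Red.BC.Main
import Fermat.Agent.Red.ModelO.FiniteStrong

/-!
# P-RED / R-MODEL: the bridge for the two charts, and FINITE (strong form) unconditionally

* `h58_bridge_fin`, `h58_bridge_inf` : a rational function whose base change is integral over
  `A[j]` (resp. `A[1/j]`) is integral over `ℤ_(ℓ)[j]` (resp. `ℤ_(ℓ)[1/j]`);
* `h58_modelFin_fg`, `h58_modelInf_fg` : the charts of the normal model over `A` are finitely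
  generated modules over `A[j]` (resp. `A[1/j]`), with generators in the chart.  This is the
  shape of `GG.IfaceFinite M A (jB M)` and of `SM.CoreFin A (jB M)`.

Proof of the bridge (helper58): let `y` be rational with `Φ y` integral over `A[j]`.
1. `Φ y` is Gauss-integral over `A`, hence `y` is Gauss-integral over `ℤ_(ℓ)`
   (`h58_inOT_of_inOTA`);
2. `y` is integral over `ℚ[j]` (`h58_intQ_of_intK`), hence `ℓⁿ y` is integral over `ℤ_(ℓ)[j]`
   (`h58_scalingQ`);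
3. by the `q`-expansion principle of S28 the power of `ℓ` can be removed
   (`h58_int_of_pow_fin`).
-/

set_option autoImplicit false
set_option linter.unusedSectionVars false

open ModularCurve

noncomputable section

namespace Fermat.Agent.Red.BC

open Fermat.Agent.S28 Fermat.Agent.Red.GV Fermat.Agent.Red.GV.Asm Fermat.Agent.S37
  Fermat.Agent.Red.ModelO

section Transport

variable (ℓ M : ℕ) [NeZero M]

/-- the evaluation `ℤ_(ℓ)[X] → F_ℚ` and the evaluation into `ℚ((q))`. -/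
theorem h58_val_comp_evQ (t : FQ M) :
    (algebraMap (FQ M) (LaurentSeries ℚ)).comp (h85evQ ℓ M t) =
      evalAt (GaloisRep.ratLocalizedAt ℓ) (t : LaurentSeries ℚ) := by
  refine Polynomial.ringHom_ext (fun r => ?_) ?_
  · simp only [RingHom.comp_apply, h85evQ, evalAt, Polynomial.coe_eval₂RingHom,
      Polynomial.eval₂_C, h85zlHom_apply]
    have h3 : (algebraMap (FQ M) (LaurentSeries ℚ)).comp (algebraMap ℚ (FQ M)) =
        algebraMap ℚ (LaurentSeries ℚ) := Subsingleton.elim _ _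
    exact RingHom.congr_fun h3 _
  · simp only [RingHom.comp_apply, h85evQ, evalAt, Polynomial.coe_eval₂RingHom,
      Polynomial.eval₂_X]
    rfl

/-- integrality in `ℚ((q))` and in `F_ℚ`. -/
theorem h58_isIntegralElem_evQ (t y : FQ M)
    (h : (evalAt (GaloisRep.ratLocalizedAt ℓ) (t : LaurentSeries ℚ)).IsIntegralElem
      (y : LaurentSeries ℚ)) : (h85evQ ℓ M t).IsIntegralElem y := by
  obtain ⟨p, hp, hpy⟩ := h
  refine ⟨p, hp, ?_⟩
  have hinj : Function.Injective (algebraMap (FQ M) (LaurentSeries ℚ)) :=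
    (algebraMap (FQ M) (LaurentSeries ℚ)).injective
  apply hinj
  rw [map_zero, Polynomial.hom_eval₂, h58_val_comp_evQ]
  exact hpy

end Transport

section Bridge

variable {ℓ M : ℕ} [NeZero M]

/-- **BRIDGE, finite chart.** -/
theorem h58_bridge_fin (hℓ : ℓ.Prime) (hℓM : ¬ ℓ ∣ M) {A : ValuationSubring Kbar}
    (hA : A.LiesOverPrime ℓ) (y : FQ M)
    (hy : h85ratEmb M y ∈ modelAt M A (h85ratEmb M (h85jQ M))) :
    (h85evQ ℓ M (h85jQ M)).IsIntegralElem y := by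
  have : Fact ℓ.Prime := ⟨hℓ⟩
  obtain ⟨D⟩ := Fermat.Agent.S28.exists_igusaInput M ℓ hℓM
  have hπ := h58_isResidueMap A ℓ hA
  obtain ⟨ι, κ, hι, hκ⟩ := exists_baseHom A _ ℓ hπ
  rw [h85ratEmb_jQ] at hy
  have hint : (evalA A (jK Kbar)).IsIntegralElem (coeffEmb Kbar (y : LaurentSeries ℚ)) := by
    have h := (h58_mem_modelAt_iff M A (jB M) (h85ratEmb M y)).mp hy
    rwa [h58_coe_jB] at h
  have hmem : coeffEmb Kbar (y : LaurentSeries ℚ) ∈ FK Kbar M := (h85ratEmb M y).2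
  have hOTA := inOTA_of_isIntegralElem_fin A _ M ℓ hπ D _ hmem hint
  have hOT : InOT ℓ (y : LaurentSeries ℚ) :=
    h58_inOT_of_inOTA A _ M ℓ hπ D ι κ hι hκ _ y.2 hOTA
  have hK : (evalC (coeffEmb Kbar jq)).IsIntegralElem (coeffEmb Kbar (y : LaurentSeries ℚ)) := by
    rw [Rep.h71_coeffEmb_jq Kbar]
    exact h58_intK_of_int _ A hint
  have hQ := h58_intQ_of_intK jq _ hK
  obtain ⟨n, hn⟩ := h58_scalingQ ℓ jq hQ
  have hfin := h58_int_of_pow_fin M ℓ D _ y.2 hOT n hn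
  exact h58_isIntegralElem_evQ ℓ M (h85jQ M) y hfin

/-- **BRIDGE, chart at infinity.** -/
theorem h58_bridge_inf (hℓ : ℓ.Prime) (hℓM : ¬ ℓ ∣ M) {A : ValuationSubring Kbar}
    (hA : A.LiesOverPrime ℓ) (y : FQ M)
    (hy : h85ratEmb M y ∈ modelAt M A (h85ratEmb M (h85jQ M)⁻¹)) :
    (h85evQ ℓ M (h85jQ M)⁻¹).IsIntegralElem y := by
  have : Fact ℓ.Prime := ⟨hℓ⟩
  obtain ⟨D⟩ := Fermat.Agent.S28.exists_igusaInput M ℓ hℓM
  have hπ := h58_isResidueMap A ℓ hA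
  obtain ⟨ι, κ, hι, hκ⟩ := exists_baseHom A _ ℓ hπ
  rw [h85ratEmb_jQ_inv] at hy
  have hint : (evalA A (jK Kbar)⁻¹).IsIntegralElem (coeffEmb Kbar (y : LaurentSeries ℚ)) := by
    have h := (h58_mem_modelAt_iff M A (jB M)⁻¹ (h85ratEmb M y)).mp hy
    rwa [h58_coe_jB_inv] at h
  have hmem : coeffEmb Kbar (y : LaurentSeries ℚ) ∈ FK Kbar M := (h85ratEmb M y).2
  have hOTA := inOTA_of_isIntegralElem_inf A _ M ℓ hπ D _ hmem hint
  have hOT : InOT ℓ (y : LaurentSeries ℚ) :=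
    h58_inOT_of_inOTA A _ M ℓ hπ D ι κ hι hκ _ y.2 hOTA
  have hK : (evalC (coeffEmb Kbar jq⁻¹)).IsIntegralElem
      (coeffEmb Kbar (y : LaurentSeries ℚ)) := by
    rw [map_inv₀, Rep.h71_coeffEmb_jq Kbar]
    exact h58_intK_of_int _ A hint
  have hQ := h58_intQ_of_intK jq⁻¹ _ hK
  obtain ⟨n, hn⟩ := h58_scalingQ ℓ jq⁻¹ hQ
  have hfin := h58_int_of_pow_inf M ℓ D _ y.2 hOT n hn
  exact h58_isIntegralElem_evQ ℓ M (h85jQ M)⁻¹ y hfin

end Bridge

section Finite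

/-- **FINITE, strong form**, from the bridge at the chart parameter only. -/
theorem h58_modelAt_fg_of_bridgeAt {ℓ M : ℕ} [NeZero M] [Fact ℓ.Prime]
    {A : ValuationSubring Kbar} (hA : A.LiesOverPrime ℓ) (t : FQ M)
    (ht : t = h85jQ M ∨ t = (h85jQ M)⁻¹)
    (hbr : ∀ y : FQ M, h85ratEmb M y ∈ modelAt M A (h85ratEmb M t) →
      (h85evQ ℓ M t).IsIntegralElem y)
    (hBC : modelAt M A (h85ratEmb M t) ≤ Subring.closure
      ((fun a : Kbar => cst M a) '' (A : Set Kbar) ∪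
        {f | IsRat f ∧ f ∈ modelAt M A (h85ratEmb M t)})) :
    ∃ S : Finset (FF M), (∀ s ∈ S, s ∈ modelAt M A (h85ratEmb M t)) ∧
      ∀ x ∈ modelAt M A (h85ratEmb M t), ∃ c : FF M → Polynomial A,
        x = ∑ s ∈ S, h85ev M A (h85ratEmb M t) (c s) * s := by
  classical
  have H : ∀ x ∈ modelAt M A (h85ratEmb M t), x ∈ Subring.closure
      ((fun a : Kbar => cst M a) '' (A : Set Kbar) ∪
        {f | ∃ y : FQ M, (h85evQ ℓ M t).IsIntegralElem y ∧ h85ratEmb M y = f}) := by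
    intro x hx
    refine Subring.closure_mono ?_ (hBC hx)
    rintro f (hf | ⟨hrat, hmem⟩)
    · exact Or.inl hf
    · obtain ⟨y, rfl⟩ := h85_exists_ratEmb_of_isRat hrat
      exact Or.inr ⟨y, hbr y hmem, rfl⟩
  obtain ⟨S₀, -, hS₀mem, hS₀gen⟩ := h85_modelAt_fg hA t ht H
  refine ⟨S₀.image (h85ratEmb M), fun s hs => ?_, fun x hx => h85InSpan_image (hS₀gen x hx)⟩
  obtain ⟨s₀, hs₀, rfl⟩ := Finset.mem_image.mp hs
  exact hS₀mem s₀ hs₀

/-- **FINITE, strong form, finite chart**, unconditional (the shape of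
`GG.IfaceFinite M A (jB M)` and of `SM.CoreFin A (jB M)`). -/
theorem h58_modelFin_fg {ℓ M : ℕ} [NeZero M] (hℓ : ℓ.Prime) (hℓM : ¬ ℓ ∣ M)
    {A : ValuationSubring Kbar} (hA : A.LiesOverPrime ℓ) :
    ∃ S : Finset (FF M), (∀ s ∈ S, s ∈ modelAt M A (jB M)) ∧
      ∀ x ∈ modelAt M A (jB M), ∃ c : FF M → Polynomial A,
        x = ∑ s ∈ S, h85ev M A (jB M) (c s) * s := by
  have : Fact ℓ.Prime := ⟨hℓ⟩
  have h := h58_modelAt_fg_of_bridgeAt hA (h85jQ M) (Or.inl rfl)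
    (fun y hy => h58_bridge_fin hℓ hℓM hA y hy)
    (by rw [h85ratEmb_jQ]; exact (ifaceBaseChange M ℓ hℓ hℓM A hA).1)
  rwa [h85ratEmb_jQ] at h

/-- **FINITE, strong form, chart at infinity**, unconditional (the shape of
`GG.IfaceFinite M A (jB M)⁻¹` and of `SM.CoreFin A (jB M)⁻¹`). -/
theorem h58_modelInf_fg {ℓ M : ℕ} [NeZero M] (hℓ : ℓ.Prime) (hℓM : ¬ ℓ ∣ M)
    {A : ValuationSubring Kbar} (hA : A.LiesOverPrime ℓ) :
    ∃ S : Finset (FF M), (∀ s ∈ S, s ∈ modelAt M A (jB M)⁻¹) ∧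
      ∀ x ∈ modelAt M A (jB M)⁻¹, ∃ c : FF M → Polynomial A,
        x = ∑ s ∈ S, h85ev M A (jB M)⁻¹ (c s) * s := by
  have : Fact ℓ.Prime := ⟨hℓ⟩
  have h := h58_modelAt_fg_of_bridgeAt hA (h85jQ M)⁻¹ (Or.inr rfl)
    (fun y hy => h58_bridge_inf hℓ hℓM hA y hy)
    (by rw [h85ratEmb_jQ_inv]; exact (ifaceBaseChange M ℓ hℓ hℓM A hA).2)
  rwa [h85ratEmb_jQ_inv] at h

end Finite

end Fermat.Agent.Red.BC
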