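import Fermat.Agent.Red.BC.RatRed

/-!
# P-RED / R-MODEL bridge, part 1: rational Gauss-integrality

`h58_inOT_of_inOTA`: a rational function whose base change is Gauss-integral over `A` is
Gauss-integral over `ℤ_(ℓ)` (in the sense of `Fermat.Agent.S28.InOT`).
-/

set_option autoImplicit false

open ModularCurve

noncomputable section

namespace Fermat.Agent.Red.BC

open Fermat.Agent.S28 Fermat.Agent.Red.GV Fermat.Agent.Red.GV.Asm Fermat.Agent.S37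

section BridgeOT

variable (A : ValuationSubring Kbar) {k : Type} [Field k] (π : A →+* k) (N ℓ : ℕ) [NeZero N]
  [Fact ℓ.Prime] (hπ : IsResidueMap A π ℓ) (D : IgusaInput N ℓ)
  (ι : GaloisRep.ratLocalizedAt ℓ →+* A) (κ : ZMod ℓ →+* k)
  (hι : ∀ r, ((ι r : A) : Kbar) = algebraMap ℚ Kbar (r : ℚ))
  (hκ : ∀ r, π (ι r) = κ (resL ℓ r))

include hπ D hι hκ in
/-- **Rational Gauss-integrality.** -/
theorem h58_inOT_of_inOTA (g : LaurentSeries ℚ) (hg : g ∈ modularFunctionFieldFull N)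
    (hOT : InOTA A π (coeffEmb Kbar g)) : InOT ℓ g := by
  have hℓ : ℓ.Prime := Fact.out
  have hℓ0 : (ℓ : Kbar) ≠ 0 := Nat.cast_ne_zero.mpr hℓ.ne_zero
  by_cases hg0 : g = 0
  · subst hg0
    exact Fermat.Agent.S28.Asm.inOT_zero ℓ
  obtain ⟨UR, hUR⟩ := (exists_embR_eq_iff ℓ D.U).mpr D.U_coeff
  obtain ⟨k₀, Dn, P, hDn, hP, hrep⟩ :=
    Fermat.Agent.S28.Asm.exists_normalized_rep N ℓ D UR hUR g hg hg0
  have hbbR : redR ℓ (Fermat.Agent.S28.Asm.comb ℓ D.I UR P) ≠ 0 :=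
    Fermat.Agent.S28.Asm.redR_comb_ne_zero N ℓ D UR hUR P hP
  set bbR := Fermat.Agent.S28.Asm.comb ℓ D.I UR P with hbbRdef
  set bb : LaurentSeries A := coeffMap ι bbR with hbbdef
  set Dn' : Polynomial A := Dn.map ι with hDn'def
  set c : Kbar := (ℓ : Kbar) ^ k₀ with hc
  have hc0 : c ≠ 0 := zpow_ne_zero _ hℓ0
  have hDn' : Dn'.map π ≠ 0 := by
    rw [hDn'def, h58_map_map A π ℓ ι κ hκ]
    exact (Polynomial.map_ne_zero_iff κ.injective).mpr hDn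
  have hbb : redA π bb ≠ 0 := by
    rw [hbbdef, h58_redA_coeffMap A π ℓ ι κ hκ]
    intro h0
    exact hbbR (h58_coeffMap_injective ℓ κ (by rw [h0, map_zero]))
  have hrepK : HahnSeries.C c * (evalA A (jK Kbar) Dn' * coeffEmb Kbar g) = embA A bb := by
    have h1 := congrArg (coeffEmb Kbar) hrep
    rw [map_mul, map_mul, map_zpow₀, map_natCast, h58_coeffEmb_evalAt A ℓ ι hι,
      ← h58_embA_coeffMap A ℓ ι hι] at h1
    rw [← h1, hc, map_zpow₀, map_natCast]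
  have hcinv : c⁻¹ ∈ A :=
    (inOTA_iff_of_rep A π hπ.ker_eq _ c hc0 Dn' hDn' bb hbb hrepK).mp hOT
  have hk₀ : k₀ ≤ 0 := h58_zpow_nonpos A ℓ hℓ hπ.natCast_mem k₀ hcinv
  obtain ⟨P', hP'⟩ := Fermat.Agent.S28.Asm.rep_of_nonpos ℓ D.I UR g k₀ hk₀ Dn P hrep
  exact Fermat.Agent.S28.Asm.inOT_of_rep ℓ g Dn hDn _ hP'

end BridgeOT

end Fermat.Agent.Red.BC
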