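import Fermat.Agent.Red.BC.Descent
import Fermat.Agent.S28.RAsm

/-!
# P-RED / R-MODEL bridge, part 2: descent of integrality from `ℚ̄[t]` to `ℚ[t]`

`h58_intQ_of_intK`: a rational Laurent series whose base change is integral over `ℚ̄[t]`
(`t` rational) is integral over `ℚ[t]`.  Proof: apply a `ℚ`-linear retraction `ℚ̄ → ℚ`
coefficientwise to a monic relation.
-/

set_option autoImplicit false

open ModularCurve

noncomputable section

namespace Fermat.Agent.Red.BC

open Fermat.Agent.S28 Fermat.Agent.Red.GV Fermat.Agent.S37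

section Psi

variable (ψ : Kbar →ₗ[ℚ] ℚ)

/-- coefficientwise application of a `ℚ`-linear form. -/
def h58_Psi : LaurentSeries Kbar →+ LaurentSeries ℚ where
  toFun x := HahnSeries.map x ψ
  map_zero' := by ext n; simp
  map_add' x y := by ext n; simp

theorem h58_Psi_coeff (x : LaurentSeries Kbar) (n : ℤ) :
    (h58_Psi ψ x).coeff n = ψ (x.coeff n) := rfl

theorem h58_Psi_C_mul (c : Kbar) (g : LaurentSeries ℚ) :
    h58_Psi ψ (HahnSeries.C c * coeffEmb Kbar g) = HahnSeries.C (ψ c) * g := by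
  ext n
  rw [h58_Psi_coeff, HahnSeries.C_mul_eq_smul, HahnSeries.C_mul_eq_smul, HahnSeries.coeff_smul,
    HahnSeries.coeff_smul, coeffEmb_coeff, smul_eq_mul, smul_eq_mul, mul_comm c,
    ← Algebra.smul_def, map_smul, smul_eq_mul, mul_comm]

/-- coefficientwise application of a `ℚ`-linear form to a polynomial. -/
def h58_Tpsi (a : Polynomial Kbar) : Polynomial ℚ :=
  a.sum fun k c => Polynomial.monomial k (ψ c)

theorem h58_Tpsi_one (h1 : ψ 1 = 1) : h58_Tpsi ψ 1 = 1 := by
  rw [h58_Tpsi, ← Polynomial.C_1, Polynomial.sum_C_index (by simp), h1]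
  rfl

theorem h58_Psi_evalC_mul (t₀ g : LaurentSeries ℚ) (a : Polynomial Kbar) :
    h58_Psi ψ (evalC (coeffEmb Kbar t₀) a * coeffEmb Kbar g) =
      evalAtQ t₀ (h58_Tpsi ψ a) * g := by
  rw [evalC, Polynomial.coe_eval₂RingHom, Polynomial.eval₂_eq_sum, Polynomial.sum_def,
    Finset.sum_mul, map_sum, h58_Tpsi, Polynomial.sum_def, map_sum, Finset.sum_mul]
  refine Finset.sum_congr rfl fun k _ => ?_
  rw [mul_assoc, ← map_pow, ← map_mul, h58_Psi_C_mul, evalAtQ, Polynomial.coe_eval₂RingHom,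
    Polynomial.eval₂_monomial, Fermat.Agent.S28.Asm.algebraMap_eq_C, mul_assoc]

end Psi

/-- **Descent of integrality** from `ℚ̄[t]` to `ℚ[t]`. -/
theorem h58_intQ_of_intK (t₀ y₀ : LaurentSeries ℚ)
    (h : (evalC (coeffEmb Kbar t₀)).IsIntegralElem (coeffEmb Kbar y₀)) :
    (evalAtQ t₀).IsIntegralElem y₀ := by
  obtain ⟨ψ, hψ⟩ := LinearMap.exists_leftInverse_of_injective (Algebra.linearMap ℚ Kbar)
    (LinearMap.ker_eq_bot.mpr (algebraMap ℚ Kbar).injective)
  have hψ1 : ψ 1 = 1 := by
    have := LinearMap.congr_fun hψ 1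
    simpa using this
  obtain ⟨p, hp, hpy⟩ := h
  refine ⟨∑ i ∈ Finset.range (p.natDegree + 1),
    Polynomial.monomial i (h58_Tpsi ψ (p.coeff i)), ?_, ?_⟩
  · apply Polynomial.monic_of_natDegree_le_of_coeff_eq_one p.natDegree
    · exact Polynomial.natDegree_sum_le_of_forall_le _ _ fun i hi =>
        (Polynomial.natDegree_monomial_le _).trans (Finset.mem_range_succ_iff.mp hi)
    · rw [Polynomial.finsetSum_coeff]
      simp only [Polynomial.coeff_monomial]
      rw [Finset.sum_ite_eq' , if_pos (Finset.self_mem_range_succ _)]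
      have : p.coeff p.natDegree = 1 := hp
      rw [this, h58_Tpsi_one ψ hψ1]
  · rw [Polynomial.eval₂_finsetSum]
    simp only [Polynomial.eval₂_monomial]
    have h0 := congrArg (h58_Psi ψ) hpy
    rw [Polynomial.eval₂_eq_sum_range, map_sum, map_zero] at h0
    rw [← h0]
    refine Finset.sum_congr rfl fun i _ => ?_
    rw [← map_pow, h58_Psi_evalC_mul]

end Fermat.Agent.Red.BC
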