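import Fermat.Agent.Red.BC.BridgeMain
import Fermat.Agent.Red.SM.InstSkeleton
import Fermat.Agent.Red.GGDefs

/-!
# P-RED: FINITE in the vocabulary of the consumers

* `h58_rowFin : Fermat.Agent.Red.SM.Inst.RowFin` (row SM-FIN of R-SM);
* `h58_ifaceFinite_fin`, `h58_ifaceFinite_inf` : `GG.IfaceFinite` for both charts (R-GATEGOOD).
-/

set_option autoImplicit false

open ModularCurve

noncomputable section

namespace Fermat.Agent.Red.BC

open Fermat.Agent.S37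

/-- **SM-FIN**: both `j`-charts are finitely generated modules. -/
theorem h58_rowFin : Fermat.Agent.Red.SM.Inst.RowFin := by
  intro ℓ hℓ M _ hℓM A hA
  exact ⟨h58_modelFin_fg hℓ hℓM hA, h58_modelInf_fg hℓ hℓM hA⟩

/-- **FINITE**, finite chart. -/
theorem h58_ifaceFinite_fin {ℓ M : ℕ} [NeZero M] (hℓ : ℓ.Prime) (hℓM : ¬ ℓ ∣ M)
    {A : ValuationSubring Kbar} (hA : A.LiesOverPrime ℓ) :
    Fermat.Agent.Red.GG.IfaceFinite M A (jB M) :=
  h58_modelFin_fg hℓ hℓM hA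

/-- **FINITE**, chart at infinity. -/
theorem h58_ifaceFinite_inf {ℓ M : ℕ} [NeZero M] (hℓ : ℓ.Prime) (hℓM : ¬ ℓ ∣ M)
    {A : ValuationSubring Kbar} (hA : A.LiesOverPrime ℓ) :
    Fermat.Agent.Red.GG.IfaceFinite M A (jB M)⁻¹ :=
  h58_modelInf_fg hℓ hℓM hA

end Fermat.Agent.Red.BC
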