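import Fermat.Agent.Red.BC.Red

/-!
# P-RED / R-BC, part 6: the chart is spanned over `A` by the rational integral functions

`h58_core`: for a chart `t` (with rational coefficients, for which integrality implies
Gauss-integrality and the `q`-expansion principle holds), every element of `F_K` integral over
`A[t]` is an `A`-linear combination of elements of `F_K` which have rational coefficients and
are integral over `A[t]`.
-/

set_option autoImplicit false

open ModularCurve

noncomputable section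

namespace Fermat.Agent.Red.BC

open Fermat.Agent.S28 Fermat.Agent.Red.GV Fermat.Agent.Red.GV.Asm Fermat.Agent.S37

theorem h58_smulA (A : ValuationSubring Kbar) (a : A) (x : LaurentSeries Kbar) :
    a • x = HahnSeries.C (a : Kbar) * x := by
  rw [HahnSeries.C_mul_eq_smul]
  ext n
  simp only [HahnSeries.coeff_smul]
  rfl

theorem h58_natCast_eq_C (A : ValuationSubring Kbar) (m : ℕ) :
    ((m : ℕ) : LaurentSeries Kbar) = HahnSeries.C (((m : A) : A) : Kbar) := by
  simp

/-- the hypotheses on a chart. -/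
structure h58_ChartHyp (A : ValuationSubring Kbar) (N : ℕ) (t : LaurentSeries Kbar) : Prop where
  fix : ∀ σ : Kbar ≃+* Kbar, coeffMap (σ : Kbar →+* Kbar) t = t
  g2 : ∀ x ∈ FK Kbar N, (evalA A t).IsIntegralElem x → InOTA A (IsLocalRing.residue A) x
  g3 : ∀ x ∈ FK Kbar N, InOTA A (IsLocalRing.residue A) x → ∀ c : A, c ≠ 0 →
    (evalA A t).IsIntegralElem (HahnSeries.C (c : Kbar) * x) → (evalA A t).IsIntegralElem x

section Core

variable (A : ValuationSubring Kbar) (N : ℕ) (t : LaurentSeries Kbar)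

/-- the rational integral functions of the chart. -/
abbrev h58_R0 : Set (LaurentSeries Kbar) := h58_Rat0 (modularFunctionFieldFull N) A t

/-- the `A`-span of the rational integral functions. -/
def h58_SA : Submodule A (LaurentSeries Kbar) := Submodule.span A (h58_R0 A N t)

/-- rationality. -/
def h58_IsR (f : LaurentSeries Kbar) : Prop :=
  ∃ g ∈ modularFunctionFieldFull N, coeffEmb Kbar g = f

variable {A N t}

theorem h58_isR_add {f₁ f₂ : LaurentSeries Kbar} (h₁ : h58_IsR N f₁) (h₂ : h58_IsR N f₂) :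
    h58_IsR N (f₁ + f₂) := by
  obtain ⟨g₁, hg₁, rfl⟩ := h₁
  obtain ⟨g₂, hg₂, rfl⟩ := h₂
  exact ⟨g₁ + g₂, add_mem hg₁ hg₂, map_add _ _ _⟩

theorem h58_isR_mul {f₁ f₂ : LaurentSeries Kbar} (h₁ : h58_IsR N f₁) (h₂ : h58_IsR N f₂) :
    h58_IsR N (f₁ * f₂) := by
  obtain ⟨g₁, hg₁, rfl⟩ := h₁
  obtain ⟨g₂, hg₂, rfl⟩ := h₂
  exact ⟨g₁ * g₂, mul_mem hg₁ hg₂, map_mul _ _ _⟩

theorem h58_isR_zero : h58_IsR N 0 := ⟨0, zero_mem _, map_zero _⟩

theorem h58_isR_natCast (m : ℕ) : h58_IsR N (m : LaurentSeries Kbar) :=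
  ⟨(m : LaurentSeries ℚ), natCast_mem _ m, map_natCast _ m⟩

theorem h58_isR_inv {f : LaurentSeries Kbar} (h : h58_IsR N f) : h58_IsR N f⁻¹ := by
  obtain ⟨g, hg, rfl⟩ := h
  exact ⟨g⁻¹, inv_mem hg, map_inv₀ _ _⟩

theorem h58_isR_sum {ι : Type*} (s : Finset ι) (f : ι → LaurentSeries Kbar)
    (hf : ∀ i ∈ s, h58_IsR N (f i)) : h58_IsR N (∑ i ∈ s, f i) := by
  classical
  induction s using Finset.induction_on with
  | empty => simpa using h58_isR_zero
  | insert a s ha ih =>
    rw [Finset.sum_insert ha]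
    exact h58_isR_add (hf a (Finset.mem_insert_self a s))
      (ih fun i hi => hf i (Finset.mem_insert_of_mem hi))

theorem h58_isR_mem_FK {f : LaurentSeries Kbar} (h : h58_IsR N f) : f ∈ FK Kbar N := by
  obtain ⟨g, hg, rfl⟩ := h
  exact coeffEmb_mem_laurentBaseChange Kbar hg

theorem h58_int_C (a : A) : (evalA A t).IsIntegralElem (HahnSeries.C (a : Kbar)) := by
  rw [← evalA_C A t a]
  exact RingHom.isIntegralElem_map _

theorem h58_int_natCast (m : ℕ) : (evalA A t).IsIntegralElem (m : LaurentSeries Kbar) := by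
  rw [h58_natCast_eq_C A m]
  exact h58_int_C _

theorem h58_int_sum {ι : Type*} (s : Finset ι) (f : ι → LaurentSeries Kbar)
    (hf : ∀ i ∈ s, (evalA A t).IsIntegralElem (f i)) :
    (evalA A t).IsIntegralElem (∑ i ∈ s, f i) := by
  classical
  induction s using Finset.induction_on with
  | empty => simpa using RingHom.isIntegralElem_zero (evalA A t)
  | insert a s ha ih =>
    rw [Finset.sum_insert ha]
    exact RingHom.IsIntegralElem.add _ (hf a (Finset.mem_insert_self a s))
      (ih fun i hi => hf i (Finset.mem_insert_of_mem hi))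

theorem h58_C_mem_FK (c : Kbar) : HahnSeries.C c ∈ FK Kbar N := by
  rw [h58_C_eq_algebraMap]
  exact (FK Kbar N).algebraMap_mem c

theorem h58_R0_isR {f : LaurentSeries Kbar} (hf : f ∈ h58_R0 A N t) : h58_IsR N f := hf.1

theorem h58_R0_int {f : LaurentSeries Kbar} (hf : f ∈ h58_R0 A N t) :
    (evalA A t).IsIntegralElem f := hf.2

theorem h58_R0_inOTA (H : h58_ChartHyp A N t) {f : LaurentSeries Kbar}
    (hf : f ∈ h58_R0 A N t) : InOTA A (IsLocalRing.residue A) f :=
  H.g2 f (h58_isR_mem_FK hf.1) hf.2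

theorem h58_C_mul_mem_SA {a : Kbar} (ha : a ∈ A) {f : LaurentSeries Kbar}
    (hf : f ∈ h58_SA A N t) : HahnSeries.C a * f ∈ h58_SA A N t := by
  have := (h58_SA A N t).smul_mem (⟨a, ha⟩ : A) hf
  rwa [h58_smulA] at this

theorem h58_SA_props (H : h58_ChartHyp A N t) {y : LaurentSeries Kbar}
    (hy : y ∈ h58_SA A N t) :
    y ∈ FK Kbar N ∧ (evalA A t).IsIntegralElem y ∧ InOTA A (IsLocalRing.residue A) y := by
  unfold h58_SA at hy
  induction hy using Submodule.span_induction with
  | mem f hf => exact ⟨h58_isR_mem_FK hf.1, hf.2, h58_R0_inOTA H hf⟩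
  | zero => exact ⟨zero_mem _, RingHom.isIntegralElem_zero _, inOTA_zero A _⟩
  | add y z _ _ hy hz =>
    exact ⟨add_mem hy.1 hz.1, RingHom.IsIntegralElem.add _ hy.2.1 hz.2.1,
      h58_inOTA_add hy.2.2 hz.2.2⟩
  | smul a y _ hy =>
    rw [h58_smulA]
    exact ⟨mul_mem (h58_C_mem_FK _) hy.1, RingHom.IsIntegralElem.mul _ (h58_int_C a) hy.2.1,
      h58_inOTA_mul (h58_inOTA_C a) hy.2.2⟩

end Core

end Fermat.Agent.Red.BC
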