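import Fermat.Agent.Red.BC.Rel

/-!
# P-RED / R-BC, part 8: the induction

`h58_core`: every element of `F_K` integral over `A[t]` lies in the `A`-span of the rational
integral functions.
-/

set_option autoImplicit false

open ModularCurve

noncomputable section

namespace Fermat.Agent.Red.BC

open Fermat.Agent.S28 Fermat.Agent.Red.GV Fermat.Agent.Red.GV.Asm Fermat.Agent.S37

section Ind

variable {A : ValuationSubring Kbar} {N : ℕ} [NeZero N] {t : LaurentSeries Kbar}
  (ℓ : ℕ) [Fact ℓ.Prime] (hA : A.LiesOverPrime ℓ) (D : IgusaInput N ℓ)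
  (H : h58_ChartHyp A N t)

include hA D H in
/-- the inner induction (on the number of terms). -/
theorem h58_inner : ∀ (n : ℕ) (s : Finset (LaurentSeries Kbar))
    (c : LaurentSeries Kbar → Kbar) (x : LaurentSeries Kbar), s.card = n →
    (∀ f ∈ s, f ∈ h58_R0 A N t ∧ (ℓ : Kbar) * c f ∈ A) → x ∈ FK Kbar N →
    (evalA A t).IsIntegralElem x →
    x - ∑ f ∈ s, HahnSeries.C (c f) * f ∈ h58_SA A N t → x ∈ h58_SA A N t := by
  intro n
  induction n using Nat.strong_induction_on with
  | _ n ih =>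
  intro s c x hcard hs hxF hxint hz
  classical
  by_cases hex : ∃ f ∈ s, c f ∈ A
  · obtain ⟨f, hfs, hcf⟩ := hex
    refine ih (s.erase f).card (by rw [← hcard]; exact Finset.card_erase_lt_of_mem hfs)
      (s.erase f) c x rfl (fun f' hf' => hs f' (Finset.mem_of_mem_erase hf')) hxF hxint ?_
    have h1 : x - ∑ f' ∈ s.erase f, HahnSeries.C (c f') * f' =
        (x - ∑ f' ∈ s, HahnSeries.C (c f') * f') + HahnSeries.C (c f) * f := by
      rw [← Finset.add_sum_erase s _ hfs]
      ring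
    rw [h1]
    exact add_mem hz (h58_C_mul_mem_SA hcf (Submodule.subset_span (hs f hfs).1))
  · push Not at hex
    by_cases hne : s.Nonempty
    swap
    · rw [Finset.not_nonempty_iff_eq_empty] at hne
      subst hne
      simpa using hz
    obtain ⟨f0, hf0s, m, h, hh, hm0, hrel⟩ :=
      h58_relation ℓ hA D H s c x (fun f hf => (hs f hf).1) hne hex hxF hxint hz
    set S1 : LaurentSeries Kbar := ∑ f ∈ s.erase f0, HahnSeries.C (c f) * f with hS1
    set S2 : LaurentSeries Kbar := ∑ f ∈ s.erase f0, (m f : LaurentSeries Kbar) * f with hS2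
    have e1 : ∑ f ∈ s, HahnSeries.C (c f) * f = HahnSeries.C (c f0) * f0 + S1 :=
      (Finset.add_sum_erase s _ hf0s).symm
    have e2 : HahnSeries.C (ℓ : Kbar) * h = f0 + S2 := by
      rw [hrel, ← Finset.add_sum_erase s _ hf0s, hm0, Nat.cast_one, one_mul]
    have e3 : ∑ f ∈ s.erase f0, HahnSeries.C (c f - c f0 * (m f : Kbar)) * f =
        S1 - HahnSeries.C (c f0) * S2 := by
      rw [hS1, hS2, Finset.mul_sum, ← Finset.sum_sub_distrib]
      refine Finset.sum_congr rfl fun f _ => ?_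
      rw [map_sub, map_mul, map_natCast]
      ring
    refine ih (s.erase f0).card (by rw [← hcard]; exact Finset.card_erase_lt_of_mem hf0s)
      (s.erase f0) (fun f => c f - c f0 * (m f : Kbar)) x rfl ?_ hxF hxint ?_
    · intro f hf
      have hfs := Finset.mem_of_mem_erase hf
      refine ⟨(hs f hfs).1, ?_⟩
      have : (ℓ : Kbar) * (c f - c f0 * (m f : Kbar)) =
          (ℓ : Kbar) * c f - ((ℓ : Kbar) * c f0) * (m f : Kbar) := by ring
      rw [this]
      exact A.sub_mem (hs f hfs).2 (A.mul_mem _ _ (hs f0 hf0s).2 (natCast_mem A _))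
    · have h2 : x - ∑ f ∈ s.erase f0, HahnSeries.C (c f - c f0 * (m f : Kbar)) * f =
          (x - ∑ f ∈ s, HahnSeries.C (c f) * f) +
            HahnSeries.C ((ℓ : Kbar) * c f0) * h := by
        rw [e3, e1, map_mul]
        linear_combination (-(HahnSeries.C (c f0) : LaurentSeries Kbar)) * e2
      rw [h2]
      exact add_mem hz (h58_C_mul_mem_SA (hs f0 hf0s).2 (Submodule.subset_span hh))

include hA D H in
/-- division by `ℓ`. -/
theorem h58_div_ell (x : LaurentSeries Kbar) (hxF : x ∈ FK Kbar N)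
    (hxint : (evalA A t).IsIntegralElem x)
    (hx : HahnSeries.C (ℓ : Kbar) * x ∈ h58_SA A N t) : x ∈ h58_SA A N t := by
  have hℓ : ℓ.Prime := Fact.out
  have hℓ0 : (ℓ : Kbar) ≠ 0 := Nat.cast_ne_zero.mpr hℓ.ne_zero
  obtain ⟨a, s, hsR, -, hsum⟩ := Submodule.mem_span_iff_exists_finset_subset.mp hx
  refine h58_inner ℓ hA D H s.card s (fun f => ((a f : A) : Kbar) * (ℓ : Kbar)⁻¹) x rfl
    (fun f hf => ⟨hsR hf, ?_⟩) hxF hxint ?_
  · have : (ℓ : Kbar) * (((a f : A) : Kbar) * (ℓ : Kbar)⁻¹) = ((a f : A) : Kbar) := by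
      field_simp
    rw [this]
    exact (a f).2
  · have h1 : ∑ f ∈ s, HahnSeries.C (((a f : A) : Kbar) * (ℓ : Kbar)⁻¹) * f = x := by
      have h2 : ∑ f ∈ s, HahnSeries.C (((a f : A) : Kbar) * (ℓ : Kbar)⁻¹) * f =
          HahnSeries.C ((ℓ : Kbar)⁻¹) * ∑ f ∈ s, a f • f := by
        rw [Finset.mul_sum]
        refine Finset.sum_congr rfl fun f _ => ?_
        rw [h58_smulA, map_mul]
        ring
      rw [h2, hsum, ← mul_assoc, ← map_mul, inv_mul_cancel₀ hℓ0, map_one, one_mul]
    rw [h1, sub_self]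
    exact zero_mem _

include hA D H in
/-- division by a power of `ℓ`. -/
theorem h58_div_pow : ∀ (n : ℕ) (x : LaurentSeries Kbar), x ∈ FK Kbar N →
    (evalA A t).IsIntegralElem x →
    HahnSeries.C ((ℓ : Kbar) ^ n) * x ∈ h58_SA A N t → x ∈ h58_SA A N t := by
  intro n
  induction n with
  | zero =>
    intro x _ _ hx
    rwa [pow_zero, map_one, one_mul] at hx
  | succ n ih =>
    intro x hxF hxint hx
    apply ih x hxF hxint
    have hℓn : (ℓ : Kbar) ^ n ∈ A := A.pow_mem (natCast_mem A ℓ) n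
    refine h58_div_ell ℓ hA D H _ (mul_mem (h58_C_mem_FK _) hxF)
      (RingHom.IsIntegralElem.mul _ (h58_int_C (⟨_, hℓn⟩ : A)) hxint) ?_
    rw [← mul_assoc, ← map_mul, ← pow_succ']
    exact hx

include hA D H in
/-- **Core theorem**: the chart is the `A`-span of its rational elements. -/
theorem h58_core (x : LaurentSeries Kbar) (hxF : x ∈ FK Kbar N)
    (hxint : (evalA A t).IsIntegralElem x) : x ∈ h58_SA A N t := by
  have hℓ : ℓ.Prime := Fact.out
  have hA' := h58_stepA (modularFunctionFieldFull N) A ℓ hℓ hA t H.fix hxF hxint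
  obtain ⟨cf, s, hsR, -, hsum⟩ := Submodule.mem_span_iff_exists_finset_subset.mp hA'
  obtain ⟨n, hn⟩ := h58_exists_pow_mul_mem_finset A ℓ hℓ hA s cf
  refine h58_div_pow ℓ hA D H n x hxF hxint ?_
  rw [← hsum, Finset.mul_sum]
  refine Submodule.sum_mem _ fun f hf => ?_
  rw [← HahnSeries.C_mul_eq_smul, ← mul_assoc, ← map_mul]
  exact h58_C_mul_mem_SA (hn f hf) (Submodule.subset_span (hsR hf))

end Ind

end Fermat.Agent.Red.BC
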