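import Fermat.Agent.Red.BC.Basic

/-!
# P-RED / R-BC, part 4: reduction of rational Gauss-integral functions

`h58_ratRed`: for `g ∈ F_ℚ` with `coeffEmb g` Gauss-integral over `A`, the reduction of
`coeffEmb g` has coefficients in the prime field, and if it vanishes then `coeffEmb g / ℓ` is
again Gauss-integral.
-/

set_option autoImplicit false

open ModularCurve

noncomputable section

namespace Fermat.Agent.Red.BC

open Fermat.Agent.S28 Fermat.Agent.Red.GV Fermat.Agent.Red.GV.Asm Fermat.Agent.S37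

section Compat

variable (A : ValuationSubring Kbar) {k : Type} [Field k] (π : A →+* k) (ℓ : ℕ) [Fact ℓ.Prime]
  (ι : GaloisRep.ratLocalizedAt ℓ →+* A) (κ : ZMod ℓ →+* k)
  (hι : ∀ r, ((ι r : A) : Kbar) = algebraMap ℚ Kbar (r : ℚ))
  (hκ : ∀ r, π (ι r) = κ (resL ℓ r))

include hι in
theorem h58_embA_coeffMap (y : LaurentSeries (GaloisRep.ratLocalizedAt ℓ)) :
    embA A (coeffMap ι y) = coeffEmb Kbar (embR ℓ y) := by
  ext n
  show ((ι (y.coeff n) : A) : Kbar) = algebraMap ℚ Kbar ((y.coeff n : GaloisRep.ratLocalizedAt ℓ) : ℚ)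
  rw [hι]

include hκ in
theorem h58_redA_coeffMap (y : LaurentSeries (GaloisRep.ratLocalizedAt ℓ)) :
    redA π (coeffMap ι y) = coeffMap κ (redR ℓ y) := by
  ext n
  show π (ι (y.coeff n)) = κ (resL ℓ (y.coeff n))
  rw [hκ]

include hι in
theorem h58_coeffEmb_evalAt (Q : Polynomial (GaloisRep.ratLocalizedAt ℓ)) :
    coeffEmb Kbar (evalAt (GaloisRep.ratLocalizedAt ℓ) jq Q) =
      evalA A (jK Kbar) (Q.map ι) := by
  have h : (coeffEmb Kbar).comp (evalAt (GaloisRep.ratLocalizedAt ℓ) jq) =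
      (evalA A (jK Kbar)).comp (Polynomial.mapRingHom ι) := by
    apply Polynomial.ringHom_ext
    · intro r
      simp only [RingHom.comp_apply, evalAt, evalA, Polynomial.coe_eval₂RingHom,
        Polynomial.eval₂_C, Polynomial.coe_mapRingHom, Polynomial.map_C,
        ValuationSubring.subtype_apply, Subring.subtype_apply]
      rw [hι, algebraMap_laurentSeries_eq_single, coeffEmb, coeffMap_single]
      rfl
    · simp only [RingHom.comp_apply, evalAt, evalA, Polynomial.coe_eval₂RingHom,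
        Polynomial.eval₂_X, Polynomial.coe_mapRingHom, Polynomial.map_X]
      exact Rep.h71_coeffEmb_jq Kbar
  exact RingHom.congr_fun h Q

include hκ in
theorem h58_map_map (Q : Polynomial (GaloisRep.ratLocalizedAt ℓ)) :
    (Q.map ι).map π = (Q.map (resL ℓ)).map κ := by
  rw [Polynomial.map_map, Polynomial.map_map]
  congr 1
  exact RingHom.ext fun r => hκ r

theorem h58_coeffMap_injective : Function.Injective (coeffMap κ) := by
  intro x y h
  ext n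
  have := congrArg (fun z => HahnSeries.coeff z n) h
  exact κ.injective this

theorem h58_coeffMap_C' (c : ZMod ℓ) :
    coeffMap κ (HahnSeries.C c) = HahnSeries.C (κ c) := by
  rw [HahnSeries.C_apply, coeffMap_single, HahnSeries.C_apply]

end Compat

/-- a positive power of `ℓ` is not a unit of `A`. -/
theorem h58_zpow_nonpos (A : ValuationSubring Kbar) (ℓ : ℕ) (hℓ : ℓ.Prime)
    (hA : (ℓ : Kbar) ∈ A.nonunits) (k₀ : ℤ) (h : ((ℓ : Kbar) ^ k₀)⁻¹ ∈ A) : k₀ ≤ 0 := by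
  by_contra hk
  rw [not_le] at hk
  lift k₀ to ℕ using hk.le
  have hk' : k₀ ≠ 0 := by
    rintro rfl
    simp at hk
  rw [zpow_natCast] at h
  have hℓ0 : (ℓ : Kbar) ≠ 0 := Nat.cast_ne_zero.mpr hℓ.ne_zero
  refine notMem_nonunits_of_inv_mem A _ h (pow_ne_zero _ hℓ0) ?_
  rw [ValuationSubring.mem_nonunits_iff] at hA ⊢
  rw [map_pow]
  exact pow_lt_one₀ zero_le hA hk'

section RatRed

variable (A : ValuationSubring Kbar) {k : Type} [Field k] (π : A →+* k) (N ℓ : ℕ) [NeZero N]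
  [Fact ℓ.Prime] (hπ : IsResidueMap A π ℓ) (D : IgusaInput N ℓ)
  (ι : GaloisRep.ratLocalizedAt ℓ →+* A) (κ : ZMod ℓ →+* k)
  (hι : ∀ r, ((ι r : A) : Kbar) = algebraMap ℚ Kbar (r : ℚ))
  (hκ : ∀ r, π (ι r) = κ (resL ℓ r))

include hπ D hι hκ in
/-- **Reduction of rational functions.** -/
theorem h58_ratRed (g : LaurentSeries ℚ) (hg : g ∈ modularFunctionFieldFull N)
    (hOT : InOTA A π (coeffEmb Kbar g)) :
    ∃ r : LaurentSeries (ZMod ℓ),
      OTA_redT A π ⟨coeffEmb Kbar g, hOT⟩ = coeffMap κ r ∧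
      (r = 0 → InOTA A π (HahnSeries.C ((ℓ : Kbar)⁻¹) * coeffEmb Kbar g)) := by
  have hℓ : ℓ.Prime := Fact.out
  have hℓ0 : (ℓ : Kbar) ≠ 0 := Nat.cast_ne_zero.mpr hℓ.ne_zero
  by_cases hg0 : g = 0
  · subst hg0
    refine ⟨0, ?_, fun _ => ?_⟩
    · have : (⟨coeffEmb Kbar 0, hOT⟩ : OTA A π) = 0 := Subtype.ext (map_zero _)
      rw [this, map_zero, map_zero]
    · rw [map_zero, mul_zero]
      exact inOTA_zero A π
  obtain ⟨UR, hUR⟩ := (exists_embR_eq_iff ℓ D.U).mpr D.U_coeff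
  obtain ⟨k₀, Dn, P, hDn, hP, hrep⟩ := Fermat.Agent.S28.Asm.exists_normalized_rep N ℓ D UR hUR g hg hg0
  have hbbR : redR ℓ (Fermat.Agent.S28.Asm.comb ℓ D.I UR P) ≠ 0 :=
    Fermat.Agent.S28.Asm.redR_comb_ne_zero N ℓ D UR hUR P hP
  set bbR := Fermat.Agent.S28.Asm.comb ℓ D.I UR P with hbbRdef
  set bb : LaurentSeries A := coeffMap ι bbR with hbbdef
  set Dn' : Polynomial A := Dn.map ι with hDn'def
  set c : Kbar := (ℓ : Kbar) ^ k₀ with hc
  have hc0 : c ≠ 0 := zpow_ne_zero _ hℓ0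
  have hDn' : Dn'.map π ≠ 0 := by
    rw [hDn'def, h58_map_map A π ℓ ι κ hκ]
    exact (Polynomial.map_ne_zero_iff κ.injective).mpr hDn
  have hbb : redA π bb ≠ 0 := by
    rw [hbbdef, h58_redA_coeffMap A π ℓ ι κ hκ]
    intro h0
    exact hbbR (h58_coeffMap_injective ℓ κ (by rw [h0, map_zero]))
  have hrepK : HahnSeries.C c * (evalA A (jK Kbar) Dn' * coeffEmb Kbar g) = embA A bb := by
    have h1 := congrArg (coeffEmb Kbar) hrep
    rw [map_mul, map_mul, map_zpow₀, map_natCast, h58_coeffEmb_evalAt A ℓ ι hι,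
      ← h58_embA_coeffMap A ℓ ι hι] at h1
    rw [← h1, hc, map_zpow₀, map_natCast]
  have hcinv : c⁻¹ ∈ A :=
    (inOTA_iff_of_rep A π hπ.ker_eq _ c hc0 Dn' hDn' bb hbb hrepK).mp hOT
  have hk₀ : k₀ ≤ 0 := h58_zpow_nonpos A ℓ hℓ hπ.natCast_mem k₀ hcinv
  obtain ⟨n₀, hn₀⟩ := Int.exists_eq_neg_ofNat hk₀
  have hcinv' : c⁻¹ = (ℓ : Kbar) ^ n₀ := by
    rw [hc, hn₀, zpow_neg, inv_inv, zpow_natCast]
  have hrep2 := rep_of_inv_mem A (coeffEmb Kbar g) c hc0 hcinv Dn' bb hrepK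
  have hmul := OTA_redT_mul_eq (⟨coeffEmb Kbar g, hOT⟩ : OTA A π) Dn' _ hDn' hrep2.symm
  have hπc : π ⟨c⁻¹, hcinv⟩ = κ ((ℓ : ZMod ℓ) ^ n₀) := by
    have : (⟨c⁻¹, hcinv⟩ : A) = (ℓ : A) ^ n₀ := by
      apply Subtype.ext
      show c⁻¹ = (((ℓ : A) ^ n₀ : A) : Kbar)
      rw [hcinv']
      simp
    rw [this, map_pow, map_natCast, map_pow, map_natCast]
  have hE : evalC (jqModC k) (Dn'.map π) =
      coeffMap κ (evalC (jqModC (ZMod ℓ)) (Dn.map (resL ℓ))) := by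
    rw [Base.h80_coeffMap_evalC, coeffMap_jqModC, hDn'def, h58_map_map A π ℓ ι κ hκ]
  have hEne : evalC (jqModC (ZMod ℓ)) (Dn.map (resL ℓ)) ≠ 0 :=
    evalC_jqModC_ne_zero _ _ hDn
  have hEne' : evalC (jqModC k) (Dn'.map π) ≠ 0 := evalC_jqModC_ne_zero _ _ hDn'
  refine ⟨(HahnSeries.C ((ℓ : ZMod ℓ) ^ n₀) * redR ℓ bbR) /
    evalC (jqModC (ZMod ℓ)) (Dn.map (resL ℓ)), ?_, ?_⟩
  · rw [map_div₀, map_mul, h58_coeffMap_C', ← hE, eq_div_iff hEne', hmul, redA_C_mul, hπc,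
      hbbdef, h58_redA_coeffMap A π ℓ ι κ hκ]
  · intro hr
    rw [div_eq_zero_iff] at hr
    have h1 : HahnSeries.C ((ℓ : ZMod ℓ) ^ n₀) * redR ℓ bbR = 0 := hr.resolve_right hEne
    have h2 : (HahnSeries.C ((ℓ : ZMod ℓ) ^ n₀) : LaurentSeries (ZMod ℓ)) = 0 :=
      (mul_eq_zero.mp h1).resolve_right hbbR
    have h3 : ((ℓ : ZMod ℓ)) ^ n₀ = 0 := by
      have := congrArg (fun z : LaurentSeries (ZMod ℓ) => z.coeff 0) h2
      simpa using this
    have hn₀pos : n₀ ≠ 0 := by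
      rintro rfl
      rw [pow_zero] at h3
      exact one_ne_zero h3
    -- representation of `g / ℓ`
    have hrep3 : HahnSeries.C (c * (ℓ : Kbar)) *
        (evalA A (jK Kbar) Dn' * (HahnSeries.C ((ℓ : Kbar)⁻¹) * coeffEmb Kbar g)) =
        embA A bb := by
      rw [← hrepK, map_mul]
      have : (HahnSeries.C (ℓ : Kbar) : LaurentSeries Kbar) * HahnSeries.C ((ℓ : Kbar)⁻¹) = 1 := by
        rw [← map_mul, mul_inv_cancel₀ hℓ0, map_one]
      calc HahnSeries.C c * HahnSeries.C (ℓ : Kbar) *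
            (evalA A (jK Kbar) Dn' * (HahnSeries.C ((ℓ : Kbar)⁻¹) * coeffEmb Kbar g))
          = (HahnSeries.C (ℓ : Kbar) * HahnSeries.C ((ℓ : Kbar)⁻¹)) *
            (HahnSeries.C c * (evalA A (jK Kbar) Dn' * coeffEmb Kbar g)) := by ring
        _ = _ := by rw [this, one_mul]
    rw [inOTA_iff_of_rep A π hπ.ker_eq _ (c * (ℓ : Kbar)) (mul_ne_zero hc0 hℓ0) Dn' hDn' bb hbb
      hrep3]
    have : (c * (ℓ : Kbar))⁻¹ = (ℓ : Kbar) ^ (n₀ - 1) := by
      rw [mul_inv, hcinv']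
      have : n₀ = (n₀ - 1) + 1 := by omega
      conv_lhs => rw [this, pow_succ]
      field_simp
    rw [this]
    exact A.pow_mem (natCast_mem A ℓ) _

end RatRed

end Fermat.Agent.Red.BC
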