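import Fermat.Agent.Red.BC.Descent
import Fermat.Agent.Red.BC.RatRed

/-!
# P-RED / R-BC, part 5: the reduction map as a total function, linear disjointness

* `h58_rd` : the reduction `OT → k((q))` extended by zero.
* `h58_linDisj` : `k` and `𝔽_ℓ((q))` are linearly disjoint over `𝔽_ℓ` inside `k((q))`.
-/

set_option autoImplicit false

open ModularCurve

noncomputable section

namespace Fermat.Agent.Red.BC

open Fermat.Agent.S28 Fermat.Agent.Red.GV Fermat.Agent.Red.GV.Asm Fermat.Agent.S37

/-! ### Linear disjointness -/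

section LinDisj

variable {k : Type} [Field k] (ℓ : ℕ) [Fact ℓ.Prime] (κ : ZMod ℓ →+* k)

/-- **linear disjointness**: a `k`-linear relation between series with coefficients in the
prime field, one of whose coefficients is `1`, gives a relation over the prime field with the
same coefficient equal to `1`. -/
theorem h58_linDisj {ι : Type*} (s : Finset ι) (lam : ι → k)
    (r : ι → LaurentSeries (ZMod ℓ)) (i0 : ι) (h1 : lam i0 = 1)
    (h : ∑ i ∈ s, HahnSeries.C (lam i) * coeffMap κ (r i) = 0) :
    ∃ μ : ι → ZMod ℓ, μ i0 = 1 ∧ ∑ i ∈ s, HahnSeries.C (μ i) * r i = 0 := by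
  letI : Algebra (ZMod ℓ) k := κ.toAlgebra
  obtain ⟨φ, hφ⟩ := LinearMap.exists_leftInverse_of_injective (Algebra.linearMap (ZMod ℓ) k)
    (LinearMap.ker_eq_bot.mpr κ.injective)
  have hφ' : ∀ c : ZMod ℓ, φ (κ c) = c := fun c => by
    have h0 : φ (algebraMap (ZMod ℓ) k c) = c := by
      have := LinearMap.congr_fun hφ c
      simpa using this
    exact h0
  have hφmul : ∀ (c : ZMod ℓ) (v : k), φ (v * κ c) = φ v * c := by
    intro c v
    have : v * κ c = c • v := by
      rw [Algebra.smul_def, mul_comm]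
      rfl
    rw [this, map_smul, smul_eq_mul, mul_comm]
  refine ⟨fun i => φ (lam i), ?_, ?_⟩
  · show φ (lam i0) = 1
    rw [h1, ← map_one κ, hφ']
  · ext n
    have hn := congrArg (fun z : LaurentSeries k => z.coeff n) h
    simp only [HahnSeries.coeff_zero] at hn
    have e1 : (∑ i ∈ s, HahnSeries.C (lam i) * coeffMap κ (r i)).coeff n =
        ∑ i ∈ s, lam i * κ ((r i).coeff n) := by
      rw [← HahnSeries.coeff.addMonoidHom_apply, map_sum]
      refine Finset.sum_congr rfl fun i _ => ?_
      rw [HahnSeries.coeff.addMonoidHom_apply, HahnSeries.C_mul_eq_smul, HahnSeries.coeff_smul,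
        coeffMap_coeff, smul_eq_mul]
    have e2 : (∑ i ∈ s, HahnSeries.C (φ (lam i)) * r i).coeff n =
        ∑ i ∈ s, φ (lam i) * (r i).coeff n := by
      rw [← HahnSeries.coeff.addMonoidHom_apply, map_sum]
      refine Finset.sum_congr rfl fun i _ => ?_
      rw [HahnSeries.coeff.addMonoidHom_apply, HahnSeries.C_mul_eq_smul, HahnSeries.coeff_smul,
        smul_eq_mul]
    rw [e1] at hn
    rw [e2, HahnSeries.coeff_zero]
    have := congrArg φ hn
    rw [map_sum, map_zero] at this
    rw [← this]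
    refine Finset.sum_congr rfl fun i _ => ?_
    rw [hφmul]

end LinDisj

/-! ### The reduction map extended by zero -/

section Rd

variable (A : ValuationSubring Kbar) {k : Type} [Field k] (π : A →+* k)

open Classical in
/-- the reduction map `OT → k((q))`, extended by zero. -/
def h58_rd (x : LaurentSeries Kbar) : LaurentSeries k :=
  if h : InOTA A π x then OTA_redT A π ⟨x, h⟩ else 0

variable {A π}

theorem h58_rd_eq {x : LaurentSeries Kbar} (hx : InOTA A π x) :
    h58_rd A π x = OTA_redT A π ⟨x, hx⟩ := dif_pos hx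

theorem h58_inOTA_add {x y : LaurentSeries Kbar} (hx : InOTA A π x) (hy : InOTA A π y) :
    InOTA A π (x + y) := (OTA A π).add_mem hx hy

theorem h58_inOTA_mul {x y : LaurentSeries Kbar} (hx : InOTA A π x) (hy : InOTA A π y) :
    InOTA A π (x * y) := (OTA A π).mul_mem hx hy

theorem h58_inOTA_sub {x y : LaurentSeries Kbar} (hx : InOTA A π x) (hy : InOTA A π y) :
    InOTA A π (x - y) := (OTA A π).sub_mem hx hy

theorem h58_inOTA_sum {ι : Type*} (s : Finset ι) (f : ι → LaurentSeries Kbar)
    (hf : ∀ i ∈ s, InOTA A π (f i)) : InOTA A π (∑ i ∈ s, f i) :=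
  (OTA A π).sum_mem hf

theorem h58_rd_add {x y : LaurentSeries Kbar} (hx : InOTA A π x) (hy : InOTA A π y) :
    h58_rd A π (x + y) = h58_rd A π x + h58_rd A π y := by
  rw [h58_rd_eq hx, h58_rd_eq hy, h58_rd_eq (h58_inOTA_add hx hy), ← map_add]
  rfl

theorem h58_rd_mul {x y : LaurentSeries Kbar} (hx : InOTA A π x) (hy : InOTA A π y) :
    h58_rd A π (x * y) = h58_rd A π x * h58_rd A π y := by
  rw [h58_rd_eq hx, h58_rd_eq hy, h58_rd_eq (h58_inOTA_mul hx hy), ← map_mul]
  rfl

theorem h58_rd_zero : h58_rd A π 0 = 0 := by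
  rw [h58_rd_eq (inOTA_zero A π)]
  exact map_zero (OTA_redT A π)

theorem h58_rd_sum {ι : Type*} (s : Finset ι) (f : ι → LaurentSeries Kbar)
    (hf : ∀ i ∈ s, InOTA A π (f i)) :
    h58_rd A π (∑ i ∈ s, f i) = ∑ i ∈ s, h58_rd A π (f i) := by
  classical
  induction s using Finset.induction_on with
  | empty => simp [h58_rd_zero]
  | insert a s ha ih =>
    rw [Finset.sum_insert ha, Finset.sum_insert ha,
      h58_rd_add (hf a (Finset.mem_insert_self a s))
        (h58_inOTA_sum s f fun i hi => hf i (Finset.mem_insert_of_mem hi)),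
      ih fun i hi => hf i (Finset.mem_insert_of_mem hi)]

theorem h58_inOTA_C (a : A) : InOTA A π (HahnSeries.C (a : Kbar)) := by
  have := OTA_isWit_of_embA A π (HahnSeries.C a)
  rw [embA_C] at this
  exact (OTA_inOTA_iff A π _).mpr ⟨_, _, this⟩

theorem h58_rd_C (a : A) : h58_rd A π (HahnSeries.C (a : Kbar)) = HahnSeries.C (π a) := by
  rw [h58_rd_eq (h58_inOTA_C a), OTA_redT_of_embA _ (HahnSeries.C a) (embA_C A a), redA_C]

theorem h58_rd_eq_zero_of_nonunit (hker : ∀ a : A, π a = 0 ↔ (a : Kbar) ∈ A.nonunits)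
    {e : Kbar} (he : e ∈ A.nonunits) {x : LaurentSeries Kbar} (hx : InOTA A π x) :
    h58_rd A π (HahnSeries.C e * x) = 0 := by
  have heA : e ∈ A := mem_of_mem_nonunits A e he
  have h1 := h58_rd_mul (h58_inOTA_C (π := π) ⟨e, heA⟩) hx
  rw [h58_rd_C, (hker ⟨e, heA⟩).mpr he, map_zero, zero_mul] at h1
  exact h1

end Rd

end Fermat.Agent.Red.BC
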