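import Fermat.Agent.Red.BC.Core

/-!
# P-RED / R-BC, part 7: the relation lemma

`h58_relation`: if `x ∈ F_K` is integral over `A[t]` and `x ≡ ∑ c_f f` modulo the `A`-span of
the rational integral functions, with no coefficient `c_f` in `A`, then there is an integral
relation `ℓ h = ∑ m_f f` with `h` rational integral and `m_{f₀} = 1` for an index `f₀`.
-/

set_option autoImplicit false

open ModularCurve

noncomputable section

namespace Fermat.Agent.Red.BC

open Fermat.Agent.S28 Fermat.Agent.Red.GV Fermat.Agent.Red.GV.Asm Fermat.Agent.S37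

section Rel

variable {A : ValuationSubring Kbar} {N : ℕ} [NeZero N] {t : LaurentSeries Kbar}

/-- a coefficient of maximal valuation. -/
theorem h58_exists_max (s : Finset (LaurentSeries Kbar)) (c : LaurentSeries Kbar → Kbar)
    (hne : s.Nonempty) (hcA : ∀ f ∈ s, c f ∉ A) :
    ∃ f0 ∈ s, c f0 ≠ 0 ∧ (c f0)⁻¹ ∈ A.nonunits ∧ ∀ f ∈ s, c f * (c f0)⁻¹ ∈ A := by
  obtain ⟨f0, hf0s, hf0max⟩ := Finset.exists_max_image s (fun f => A.valuation (c f)) hne
  have hc0 : c f0 ∉ A := hcA f0 hf0s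
  have hc0ne : c f0 ≠ 0 := fun h => hc0 (h ▸ A.zero_mem)
  refine ⟨f0, hf0s, hc0ne, inv_mem_nonunits_of_notMem A _ hc0, fun f hf => ?_⟩
  rw [← A.valuation_le_one_iff, map_mul, map_inv₀, ← div_eq_mul_inv]
  have hpos : 0 < A.valuation (c f0) := zero_lt_iff.mpr ((A.valuation).ne_zero_iff.mpr hc0ne)
  exact (div_le_one₀ hpos).mpr (hf0max f hf)

variable (ℓ : ℕ) [Fact ℓ.Prime] (hA : A.LiesOverPrime ℓ) (D : IgusaInput N ℓ)
  (H : h58_ChartHyp A N t)

include hA D H in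
/-- **The relation lemma.** -/
theorem h58_relation (s : Finset (LaurentSeries Kbar)) (c : LaurentSeries Kbar → Kbar)
    (x : LaurentSeries Kbar) (hs : ∀ f ∈ s, f ∈ h58_R0 A N t) (hne : s.Nonempty)
    (hcA : ∀ f ∈ s, c f ∉ A) (hxF : x ∈ FK Kbar N) (hxint : (evalA A t).IsIntegralElem x)
    (hz : x - ∑ f ∈ s, HahnSeries.C (c f) * f ∈ h58_SA A N t) :
    ∃ f0 ∈ s, ∃ (m : LaurentSeries Kbar → ℕ) (h : LaurentSeries Kbar),
      h ∈ h58_R0 A N t ∧ m f0 = 1 ∧
      HahnSeries.C (ℓ : Kbar) * h = ∑ f ∈ s, (m f : LaurentSeries Kbar) * f := by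
  classical
  have hℓ : ℓ.Prime := Fact.out
  have hℓ0 : (ℓ : Kbar) ≠ 0 := Nat.cast_ne_zero.mpr hℓ.ne_zero
  have hπ := h58_isResidueMap A ℓ hA
  obtain ⟨ι, κ, hι, hκ⟩ := exists_baseHom A (IsLocalRing.residue A) ℓ hπ
  obtain ⟨f0, hf0s, hc0ne, he, haA⟩ := h58_exists_max s c hne hcA
  set e : Kbar := (c f0)⁻¹ with he_def
  refine ⟨f0, hf0s, ?_⟩
  -- the coefficients `a_f = c_f / c_{f0}`
  let aA : LaurentSeries Kbar → A := fun f =>
    if h : c f * e ∈ A then ⟨c f * e, h⟩ else 0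
  have haA' : ∀ f ∈ s, ((aA f : A) : Kbar) = c f * e := by
    intro f hf
    simp only [aA, dif_pos (haA f hf)]
  have haA0 : aA f0 = 1 := by
    apply Subtype.ext
    rw [haA' f0 hf0s, he_def, mul_inv_cancel₀ hc0ne]
    rfl
  set z : LaurentSeries Kbar := x - ∑ f ∈ s, HahnSeries.C (c f) * f with hzdef
  obtain ⟨hzF, hzint, hzOT⟩ := h58_SA_props H hz
  have hxOT : InOTA A (IsLocalRing.residue A) x := H.g2 x hxF hxint
  have hfOT : ∀ f ∈ s, InOTA A (IsLocalRing.residue A) f := fun f hf => h58_R0_inOTA H (hs f hf)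
  -- the key identity
  have hkey : HahnSeries.C e * x =
      ∑ f ∈ s, HahnSeries.C ((aA f : A) : Kbar) * f + HahnSeries.C e * z := by
    have h1 : x = z + ∑ f ∈ s, HahnSeries.C (c f) * f := by rw [hzdef]; ring
    conv_lhs => rw [h1]
    rw [mul_add, add_comm, Finset.mul_sum]
    congr 1
    refine Finset.sum_congr rfl fun f hf => ?_
    rw [haA' f hf, map_mul]
    ring
  have hsumOT : InOTA A (IsLocalRing.residue A)
      (∑ f ∈ s, HahnSeries.C ((aA f : A) : Kbar) * f) :=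
    h58_inOTA_sum s _ fun f hf => h58_inOTA_mul (h58_inOTA_C _) (hfOT f hf)
  have heA : e ∈ A := mem_of_mem_nonunits A e he
  have hezOT : InOTA A (IsLocalRing.residue A) (HahnSeries.C e * z) :=
    h58_inOTA_mul (h58_inOTA_C (⟨e, heA⟩ : A)) hzOT
  have hrd0 : h58_rd A (IsLocalRing.residue A)
      (∑ f ∈ s, HahnSeries.C ((aA f : A) : Kbar) * f) = 0 := by
    have h1 := h58_rd_eq_zero_of_nonunit hπ.ker_eq he hxOT
    have h2 := h58_rd_eq_zero_of_nonunit hπ.ker_eq he hzOT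
    rw [hkey, h58_rd_add hsumOT hezOT, h2, add_zero] at h1
    exact h1
  -- reductions of the `f`
  have hr : ∀ f ∈ s, ∃ r : LaurentSeries (ZMod ℓ),
      h58_rd A (IsLocalRing.residue A) f = coeffMap κ r := by
    intro f hf
    obtain ⟨g, hg, hgf⟩ := h58_R0_isR (hs f hf)
    have hOT := hfOT f hf
    rw [← hgf] at hOT
    obtain ⟨r, hr, -⟩ := h58_ratRed A (IsLocalRing.residue A) N ℓ hπ D ι κ hι hκ g hg hOT
    refine ⟨r, ?_⟩
    rw [← hr, ← h58_rd_eq hOT, hgf]
  choose! r hr using hr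
  have hrel : ∑ f ∈ s, HahnSeries.C (IsLocalRing.residue A (aA f)) * coeffMap κ (r f) = 0 := by
    rw [← hrd0, h58_rd_sum s _ fun f hf => h58_inOTA_mul (h58_inOTA_C _) (hfOT f hf)]
    refine Finset.sum_congr rfl fun f hf => ?_
    rw [h58_rd_mul (h58_inOTA_C _) (hfOT f hf), h58_rd_C, hr f hf]
  obtain ⟨μ, hμ0, hμ⟩ := h58_linDisj ℓ κ s (fun f => IsLocalRing.residue A (aA f)) r f0
    (by simp only [haA0, map_one]) hrel
  -- the integral relation
  let m : LaurentSeries Kbar → ℕ := fun f => (μ f).val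
  have hm0 : m f0 = 1 := by
    show (μ f0).val = 1
    rw [hμ0]
    exact ZMod.val_one ℓ
  set gK : LaurentSeries Kbar := ∑ f ∈ s, (m f : LaurentSeries Kbar) * f with hgK
  have hgR : h58_IsR N gK :=
    h58_isR_sum s _ fun f hf => h58_isR_mul (h58_isR_natCast _) (h58_R0_isR (hs f hf))
  have hgint : (evalA A t).IsIntegralElem gK :=
    h58_int_sum s _ fun f hf =>
      RingHom.IsIntegralElem.mul _ (h58_int_natCast _) (h58_R0_int (hs f hf))
  have hnatOT : ∀ n : ℕ, InOTA A (IsLocalRing.residue A) (n : LaurentSeries Kbar) := by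
    intro n
    rw [h58_natCast_eq_C A n]
    exact h58_inOTA_C _
  have hgOT : InOTA A (IsLocalRing.residue A) gK :=
    h58_inOTA_sum s _ fun f hf => h58_inOTA_mul (hnatOT _) (hfOT f hf)
  have hrdnat : ∀ f, h58_rd A (IsLocalRing.residue A) ((m f : ℕ) : LaurentSeries Kbar) =
      coeffMap κ (HahnSeries.C (μ f)) := by
    intro f
    rw [h58_natCast_eq_C A (m f), h58_rd_C, h58_coeffMap_C', map_natCast]
    congr 1
    show ((μ f).val : IsLocalRing.ResidueField A) = κ (μ f)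
    conv_rhs => rw [← ZMod.natCast_zmod_val (μ f)]
    rw [map_natCast]
  have hrdg : h58_rd A (IsLocalRing.residue A) gK = 0 := by
    rw [hgK, h58_rd_sum s _ fun f hf => h58_inOTA_mul (hnatOT _) (hfOT f hf)]
    have : ∑ f ∈ s, h58_rd A (IsLocalRing.residue A) ((m f : LaurentSeries Kbar) * f) =
        coeffMap κ (∑ f ∈ s, HahnSeries.C (μ f) * r f) := by
      rw [map_sum]
      refine Finset.sum_congr rfl fun f hf => ?_
      rw [h58_rd_mul (hnatOT _) (hfOT f hf), hrdnat, hr f hf, map_mul]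
    rw [this, hμ, map_zero]
  obtain ⟨G, hG, hGK⟩ := hgR
  have hOTG : InOTA A (IsLocalRing.residue A) (coeffEmb Kbar G) := by rw [hGK]; exact hgOT
  obtain ⟨rG, hrG, hrG0⟩ := h58_ratRed A (IsLocalRing.residue A) N ℓ hπ D ι κ hι hκ G hG hOTG
  have hrGz : rG = 0 := by
    apply h58_coeffMap_injective ℓ κ
    rw [map_zero, ← hrG, ← h58_rd_eq hOTG, hGK, hrdg]
  have hhOT := hrG0 hrGz
  rw [hGK] at hhOT
  set h : LaurentSeries Kbar := HahnSeries.C ((ℓ : Kbar)⁻¹) * gK with hh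
  have hCℓ : (HahnSeries.C ((ℓ : Kbar)⁻¹) : LaurentSeries Kbar) = ((ℓ : ℕ) : LaurentSeries Kbar)⁻¹ := by
    rw [map_inv₀, map_natCast]
  have hhR : h58_IsR N h := by
    rw [hh, hCℓ]
    exact h58_isR_mul (h58_isR_inv (h58_isR_natCast ℓ)) ⟨G, hG, hGK⟩
  have hℓh : HahnSeries.C (ℓ : Kbar) * h = gK := by
    rw [hh, ← mul_assoc, ← map_mul, mul_inv_cancel₀ hℓ0, map_one, one_mul]
  have hhint : (evalA A t).IsIntegralElem h := by
    refine H.g3 h (h58_isR_mem_FK hhR) hhOT (ℓ : A) ?_ ?_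
    · intro h0
      apply hℓ0
      have := congrArg (fun a : A => (a : Kbar)) h0
      simpa using this
    · have : (((ℓ : A) : A) : Kbar) = (ℓ : Kbar) := by simp
      rw [this, hℓh]
      exact hgint
  exact ⟨m, h, ⟨hhR, hhint⟩, hm0, hℓh⟩

end Rel

end Fermat.Agent.Red.BC
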